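import Fermat.Agent.S59.TWH.AbsFree

/-!
# S59, package TW-HECKE: the freeness criterion over a tower (leaf TOWER of ABS-FREE)

`V` a finite `A`-module and `p`-group with commuting automorphisms `c 0, …, c (r-1)` of order
dividing `p ^ n`.  If for every layer `j` the norm `1 + c j + … + (c j) ^ (p ^ n - 1)` maps the
common fixed points of `c 0, …, c (j-1)` ONTO the common fixed points of `c 0, …, c j`, and the
totally fixed elements are free over `A`, then `V` is free over `A[Δ]`, `Δ = (ℤ/p^n)^r`: the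
elements `c^x (b i)` form an `A`-basis of `V`.

Only Mathlib and the cyclic step `sumMap_bijective` of `AbsFree` are used.
-/

set_option autoImplicit false

namespace Fermat.Agent.S59.TWH.H90

open Fermat.Agent.S59.TWH

universe u

section defs

variable {A : Type*} [CommRing A] {V : Type*} [AddCommGroup V] [Module A V]

/-- `1 + c + … + c ^ (m - 1)`. -/
def nm (m : ℕ) (c : Module.End A V) : Module.End A V := ∑ j ∈ Finset.range m, c ^ j

/-- the monomial `c 0 ^ x 0 * c 1 ^ x 1 * …`. -/
def mon {r : ℕ} (c : Fin r → Module.End A V) (x : Fin r → ℕ) : Module.End A V :=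
  (List.ofFn fun j => c j ^ x j).prod

/-- the total norm `nm (c 0) * nm (c 1) * …`. -/
def nmTot (m : ℕ) {r : ℕ} (c : Fin r → Module.End A V) : Module.End A V :=
  (List.ofFn fun j => nm m (c j)).prod

theorem nm_apply (m : ℕ) (c : Module.End A V) (v : V) :
    nm m c v = ∑ j ∈ Finset.range m, (c ^ j) v := by
  rw [nm, LinearMap.sum_apply]

theorem mon_zero (c : Fin 0 → Module.End A V) (x : Fin 0 → ℕ) : mon c x = 1 := by
  simp [mon]

theorem nmTot_zero (m : ℕ) (c : Fin 0 → Module.End A V) : nmTot m c = 1 := by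
  simp [nmTot]

theorem mon_succ {r : ℕ} (c : Fin (r + 1) → Module.End A V) (x : Fin (r + 1) → ℕ) :
    mon c x = c 0 ^ x 0 * mon (fun j => c j.succ) (fun j => x j.succ) := by
  simp [mon, List.ofFn_succ]

theorem nmTot_succ (m : ℕ) {r : ℕ} (c : Fin (r + 1) → Module.End A V) :
    nmTot m c = nm m (c 0) * nmTot m (fun j => c j.succ) := by
  simp [nmTot, List.ofFn_succ]

theorem commute_nm (m : ℕ) {c d : Module.End A V} (h : Commute c d) : Commute (nm m c) d := by
  rw [nm]
  exact Commute.sum_left _ _ _ fun j _ => h.pow_left j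

theorem commute_mon {r : ℕ} (c : Fin r → Module.End A V) (x : Fin r → ℕ) {d : Module.End A V}
    (h : ∀ j, Commute d (c j)) : Commute d (mon c x) := by
  rw [mon]
  apply Commute.list_prod_right
  intro y hy
  obtain ⟨j, rfl⟩ := (List.mem_ofFn' _ _).mp hy
  exact (h j).pow_right _

theorem commute_nmTot (m : ℕ) {r : ℕ} (c : Fin r → Module.End A V) {d : Module.End A V}
    (h : ∀ j, Commute d (c j)) : Commute d (nmTot m c) := by
  rw [nmTot]
  apply Commute.list_prod_right
  intro y hy
  obtain ⟨j, rfl⟩ := (List.mem_ofFn' _ _).mp hy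
  exact (commute_nm m (h j).symm).symm

/-- `(c - 1) * nm m c = c ^ m - 1`. -/
theorem sub_one_mul_nm (m : ℕ) (c : Module.End A V) : (c - 1) * nm m c = c ^ m - 1 := by
  rw [nm, mul_geom_sum]

theorem nm_fixed {m : ℕ} {c : Module.End A V} (hc : c ^ m = 1) (v : V) :
    c (nm m c v) = nm m c v := by
  have h := congrArg (fun f : Module.End A V => f v) (sub_one_mul_nm m c)
  simp only [hc, sub_self, Module.End.mul_apply, LinearMap.sub_apply, Module.End.one_apply,
    LinearMap.zero_apply] at h
  exact sub_eq_zero.mp h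

end defs

section rest

variable {A : Type*} [CommRing A] {V : Type*} [AddCommGroup V] [Module A V]

/-- the fixed points of `c`. -/
abbrev fx (c : Module.End A V) : Submodule A V := LinearMap.ker (c - 1)

theorem mem_fx {c : Module.End A V} {v : V} : v ∈ fx c ↔ c v = v := by
  rw [fx, LinearMap.mem_ker, LinearMap.sub_apply, Module.End.one_apply, sub_eq_zero]

theorem map_mem_fx {c d : Module.End A V} (h : Commute c d) {v : V} (hv : v ∈ fx c) :
    d v ∈ fx c := by
  rw [mem_fx] at hv ⊢
  have := congrArg (fun f : Module.End A V => f v) h.eq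
  simp only [Module.End.mul_apply] at this
  rw [this, hv]

/-- restriction of `d` to the fixed points of `c`. -/
def rs (c d : Module.End A V) (h : Commute c d) : Module.End A (fx c) :=
  d.restrict (fun _ hv => map_mem_fx h hv)

theorem coe_rs (c d : Module.End A V) (h : Commute c d) (v : fx c) :
    ((rs c d h v : fx c) : V) = d v := rfl

theorem coe_rs_pow (c d : Module.End A V) (h : Commute c d) (k : ℕ) (v : fx c) :
    ((((rs c d h) ^ k) v : fx c) : V) = (d ^ k) v := by
  induction k generalizing v with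
  | zero => simp
  | succ k ih =>
    rw [pow_succ, pow_succ, Module.End.mul_apply, Module.End.mul_apply, ih, coe_rs]

theorem coe_nm_rs (m : ℕ) (c d : Module.End A V) (h : Commute c d) (v : fx c) :
    ((nm m (rs c d h) v : fx c) : V) = nm m d v := by
  rw [nm_apply, nm_apply, Submodule.coe_sum]
  exact Finset.sum_congr rfl fun j _ => coe_rs_pow c d h j v

theorem coe_list_prod {r : ℕ} (c : Module.End A V) (f : Fin r → Module.End A V)
    (f' : Fin r → Module.End A (fx c)) (h : ∀ j (v : fx c), ((f' j v : fx c) : V) = f j v)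
    (v : fx c) : (((List.ofFn f').prod v : fx c) : V) = (List.ofFn f).prod v := by
  induction r generalizing v with
  | zero => simp
  | succ r ih =>
    rw [List.ofFn_succ, List.ofFn_succ, List.prod_cons, List.prod_cons, Module.End.mul_apply,
      Module.End.mul_apply, h,
      ih (fun j => f j.succ) (fun j => f' j.succ) (fun j => h j.succ)]

variable {r : ℕ} (c : Fin (r + 1) → Module.End A V) (hcomm : ∀ i j, Commute (c i) (c j))

/-- the restrictions of `c 1, …, c r` to the fixed points of `c 0`. -/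
def rst : Fin r → Module.End A (fx (c 0)) := fun j => rs (c 0) (c j.succ) (hcomm 0 j.succ)

theorem coe_rst (j : Fin r) (v : fx (c 0)) : ((rst c hcomm j v : fx (c 0)) : V) = c j.succ v :=
  rfl

theorem coe_mon_rst (x : Fin r → ℕ) (v : fx (c 0)) :
    ((mon (rst c hcomm) x v : fx (c 0)) : V) = mon (fun j => c j.succ) x v :=
  coe_list_prod (c 0) _ _ (fun j v => coe_rs_pow (c 0) (c j.succ) (hcomm 0 j.succ) (x j) v) v

theorem coe_nmTot_rst (m : ℕ) (v : fx (c 0)) :
    ((nmTot m (rst c hcomm) v : fx (c 0)) : V) = nmTot m (fun j => c j.succ) v :=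
  coe_list_prod (c 0) _ _ (fun j v => coe_nm_rs m (c 0) (c j.succ) (hcomm 0 j.succ) v) v

theorem rst_commute (i j : Fin r) : Commute (rst c hcomm i) (rst c hcomm j) := by
  apply LinearMap.ext
  intro v
  apply Subtype.ext
  rw [Module.End.mul_apply, Module.End.mul_apply, coe_rst, coe_rst, coe_rst, coe_rst]
  exact congrArg (fun f : Module.End A V => f (v : V)) (hcomm i.succ j.succ).eq

theorem rst_pow {m : ℕ} (hc : ∀ j, c j ^ m = 1) (j : Fin r) : rst c hcomm j ^ m = 1 := by
  apply LinearMap.ext
  intro v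
  apply Subtype.ext
  rw [rst, coe_rs_pow, hc j.succ]
  rfl

theorem rst_step {m : ℕ}
    (hstep : ∀ (j : Fin (r + 1)) (v : V), (∀ i, i ≤ j → c i v = v) →
        ∃ w, (∀ i, i < j → c i w = w) ∧ nm m (c j) w = v)
    (j : Fin r) (v : fx (c 0)) (hv : ∀ i, i ≤ j → rst c hcomm i v = v) :
    ∃ w, (∀ i, i < j → rst c hcomm i w = w) ∧ nm m (rst c hcomm j) w = v := by
  obtain ⟨w, hw1, hw2⟩ := hstep j.succ (v : V) (by
    intro i hi
    refine Fin.cases ?_ (fun i' => ?_) i hi
    · intro _
      exact mem_fx.mp v.2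
    · intro hi'
      have := hv i' (Fin.succ_le_succ_iff.mp hi')
      exact congrArg Subtype.val this)
  have hw0 : w ∈ fx (c 0) := mem_fx.mpr (hw1 0 (Fin.succ_pos j))
  refine ⟨⟨w, hw0⟩, ?_, ?_⟩
  · intro i hi
    apply Subtype.ext
    rw [coe_rst]
    exact hw1 i.succ (Fin.succ_lt_succ_iff.mpr hi)
  · apply Subtype.ext
    rw [rst, coe_nm_rs]
    exact hw2

end rest

section main

variable {A : Type*} [CommRing A] {ι : Type*} [Fintype ι]

/-- the family `c ^ x (b i)`, `x ∈ (Fin m) ^ r`. -/
def fam {V : Type*} [AddCommGroup V] [Module A V] {r : ℕ} (m : ℕ)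
    (c : Fin r → Module.End A V) (b : ι → V) : ι × (Fin r → Fin m) → V :=
  fun x => mon c (fun j => (x.2 j : ℕ)) (b x.1)

theorem tower_aux {p : ℕ} [Fact p.Prime] (n : ℕ) :
    ∀ (r : ℕ) (V : Type u) [AddCommGroup V] [Module A V] [Finite V]
      (_ : ∀ v : V, ∃ k : ℕ, (p ^ k) • v = 0)
      (c : Fin r → Module.End A V) (_ : ∀ i j, Commute (c i) (c j))
      (_ : ∀ j, c j ^ (p ^ n) = 1)
      (_ : ∀ (j : Fin r) (v : V), (∀ i, i ≤ j → c i v = v) →
        ∃ w, (∀ i, i < j → c i w = w) ∧ nm (p ^ n) (c j) w = v)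
      (b : ι → V)
      (_ : LinearIndependent A (fun i => nmTot (p ^ n) c (b i)))
      (_ : ∀ v, (∀ j, c j v = v) →
        v ∈ Submodule.span A (Set.range fun i => nmTot (p ^ n) c (b i))),
      LinearIndependent A (fam (p ^ n) c b) ∧
        Submodule.span A (Set.range (fam (p ^ n) c b)) = ⊤ := by
  intro r
  induction r with
  | zero =>
    intro V _ _ _ hV c hcomm hc hstep b hli hspan
    have hfam : fam (p ^ n) c b = (fun i => nmTot (p ^ n) c (b i)) ∘ Prod.fst := by
      funext x
      simp [fam, mon_zero, nmTot_zero]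
    constructor
    · rw [hfam]
      exact hli.comp _ (fun x y h => Prod.ext h (Subsingleton.elim _ _))
    · have hs : Function.Surjective (Prod.fst : ι × (Fin 0 → Fin (p ^ n)) → ι) :=
        fun i => ⟨(i, fun j => j.elim0), rfl⟩
      rw [hfam, Set.range_comp, hs.range_eq, Set.image_univ, eq_top_iff]
      intro v _
      exact hspan v (fun j => j.elim0)
  | succ r ih =>
    intro V _ _ _ hV c hcomm hc hstep b hli hspan
    classical
    have hne : NeZero (p ^ n) := ⟨(pow_pos (Fact.out : p.Prime).pos n).ne'⟩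
    have hN₀cs : ∀ j : Fin r, Commute (nm (p ^ n) (c 0)) (c j.succ) :=
      fun j => commute_nm _ (hcomm 0 j.succ)
    have hN₀mem : ∀ v, nm (p ^ n) (c 0) v ∈ fx (c 0) := fun v => mem_fx.mpr (nm_fixed (hc 0) v)
    let b' : ι → fx (c 0) := fun i => ⟨nm (p ^ n) (c 0) (b i), hN₀mem (b i)⟩
    -- total norm relation
    have htot : ∀ i, ((nmTot (p ^ n) (rst c hcomm) (b' i) : fx (c 0)) : V)
        = nmTot (p ^ n) c (b i) := by
      intro i
      rw [coe_nmTot_rst, nmTot_succ, Module.End.mul_apply]
      have := (commute_nmTot (p ^ n) (fun j : Fin r => c j.succ) hN₀cs).eq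
      exact (congrArg (fun f : Module.End A V => f (b i)) this).symm
    have hli' : LinearIndependent A (fun i => nmTot (p ^ n) (rst c hcomm) (b' i)) := by
      apply LinearIndependent.of_comp (fx (c 0)).subtype
      have : (fx (c 0)).subtype ∘ (fun i => nmTot (p ^ n) (rst c hcomm) (b' i))
          = fun i => nmTot (p ^ n) c (b i) := by
        funext i
        exact htot i
      rw [this]
      exact hli
    have hspan' : ∀ v : fx (c 0), (∀ j, rst c hcomm j v = v) →
        v ∈ Submodule.span A (Set.range fun i => nmTot (p ^ n) (rst c hcomm) (b' i)) := by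
      intro v hv
      have h1 : (v : V) ∈ Submodule.span A (Set.range fun i => nmTot (p ^ n) c (b i)) := by
        apply hspan
        intro j
        refine Fin.cases ?_ (fun j' => ?_) j
        · exact mem_fx.mp v.2
        · exact congrArg Subtype.val (hv j')
      have h2 : (Set.range fun i => nmTot (p ^ n) c (b i))
          = (fx (c 0)).subtype '' (Set.range fun i => nmTot (p ^ n) (rst c hcomm) (b' i)) := by
        rw [← Set.range_comp]
        congr 1
        funext i
        exact (htot i).symm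
      rw [h2, ← Submodule.map_span] at h1
      obtain ⟨y, hy, hyv⟩ := h1
      have : y = v := Subtype.ext hyv
      rw [← this]
      exact hy
    have hV' : ∀ v : fx (c 0), ∃ k : ℕ, (p ^ k) • v = 0 := by
      intro v
      obtain ⟨k, hk⟩ := hV (v : V)
      exact ⟨k, Subtype.ext (by simpa using hk)⟩
    obtain ⟨hLI, hSP⟩ := ih (fx (c 0)) hV' (rst c hcomm) (rst_commute c hcomm)
      (rst_pow c hcomm hc) (rst_step c hcomm hstep) b' hli' hspan'
    let e' : Module.Basis (ι × (Fin r → Fin (p ^ n))) A (fx (c 0)) := Module.Basis.mk hLI hSP.ge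
    have he' : ∀ x, e' x = fam (p ^ n) (rst c hcomm) b' x := fun x => by
      simp [e']
    let πd : V →ₗ[A] fx (c 0) := (nm (p ^ n) (c 0)).codRestrict (fx (c 0)) hN₀mem
    let w : ι × (Fin r → Fin (p ^ n)) → V := fam (p ^ n) (fun j : Fin r => c j.succ) b
    have hbij := sumMap_bijective hV (c 0) n (hc 0) πd (fx (c 0)).subtype
      (fun v => by
        show nm (p ^ n) (c 0) v = _
        rw [nm_apply])
      (Submodule.injective_subtype _)
      (fun y => by
        obtain ⟨w, -, hw⟩ := hstep 0 (y : V) (fun i hi => by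
          have : i = 0 := Fin.le_zero_iff.mp hi
          rw [this]
          exact mem_fx.mp y.2)
        exact ⟨w, Subtype.ext hw⟩)
      (fun v hv => ⟨⟨v, mem_fx.mpr hv⟩, rfl⟩)
      e' w (fun x => by
        apply Subtype.ext
        rw [he']
        show nm (p ^ n) (c 0) (fam (p ^ n) (fun j : Fin r => c j.succ) b x) = _
        rw [fam, fam, coe_mon_rst]
        have := (commute_mon (fun j : Fin r => c j.succ) (fun j => (x.2 j : ℕ)) hN₀cs).eq
        exact congrArg (fun f : Module.End A V => f (b x.1)) this)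
    let G : (ι × (Fin r → Fin (p ^ n))) × ZMod (p ^ n) → V := fun x => (c 0 ^ x.2.val) (w x.1)
    have hGli : LinearIndependent A G := by
      rw [Fintype.linearIndependent_iff]
      intro g hg i
      have : sumMap (p ^ n) (c 0) w g = sumMap (p ^ n) (c 0) w 0 := by
        rw [sumMap_apply, map_zero]
        exact hg
      exact congrFun (hbij.1 this) i
    have hGsp : Submodule.span A (Set.range G) = ⊤ := by
      rw [eq_top_iff]
      intro v _
      obtain ⟨f, rfl⟩ := hbij.2 v
      rw [sumMap_apply]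
      exact Submodule.sum_mem _ fun x _ =>
        Submodule.smul_mem _ _ (Submodule.subset_span ⟨x, rfl⟩)
    let φ : ι × (Fin (r + 1) → Fin (p ^ n)) → (ι × (Fin r → Fin (p ^ n))) × ZMod (p ^ n) :=
      fun x => ((x.1, fun j => x.2 j.succ), ((x.2 0 : ℕ) : ZMod (p ^ n)))
    have hφinj : Function.Injective φ := by
      rintro ⟨i, y⟩ ⟨i', y'⟩ h
      simp only [φ, Prod.mk.injEq] at h
      obtain ⟨⟨h1, h2⟩, h3⟩ := h
      have h4 : ((y 0 : ℕ) : ZMod (p ^ n)).val = ((y' 0 : ℕ) : ZMod (p ^ n)).val := by rw [h3]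
      rw [ZMod.val_natCast_of_lt (y 0).2, ZMod.val_natCast_of_lt (y' 0).2] at h4
      refine Prod.ext h1 ?_
      funext j
      refine Fin.cases ?_ (fun j' => ?_) j
      · exact Fin.ext h4
      · exact congrFun h2 j'
    have hφsurj : Function.Surjective φ := by
      rintro ⟨⟨i, x⟩, z⟩
      refine ⟨(i, Fin.cons ⟨z.val, ZMod.val_lt z⟩ x), ?_⟩
      simp only [φ, Fin.cons_succ, Fin.cons_zero, ZMod.natCast_zmod_val]
    have hfam : fam (p ^ n) c b = G ∘ φ := by
      funext x
      show mon c _ (b x.1) = (c 0 ^ ((x.2 0 : ℕ) : ZMod (p ^ n)).val)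
        (mon (fun j : Fin r => c j.succ) _ (b x.1))
      rw [mon_succ, Module.End.mul_apply, ZMod.val_natCast_of_lt (x.2 0).2]
    constructor
    · rw [hfam]
      exact hGli.comp φ hφinj
    · rw [hfam, Set.range_comp, hφsurj.range_eq, Set.image_univ]
      exact hGsp

/-- the total norm is onto the totally fixed elements. -/
theorem exists_nmTot_eq (m : ℕ) :
    ∀ (r : ℕ) (V : Type u) [AddCommGroup V] [Module A V]
      (c : Fin r → Module.End A V) (_ : ∀ i j, Commute (c i) (c j))
      (_ : ∀ (j : Fin r) (v : V), (∀ i, i ≤ j → c i v = v) →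
        ∃ w, (∀ i, i < j → c i w = w) ∧ nm m (c j) w = v)
      (v : V) (_ : ∀ j, c j v = v), ∃ w, nmTot m c w = v := by
  intro r
  induction r with
  | zero =>
    intro V _ _ c _ _ v _
    exact ⟨v, by rw [nmTot_zero]; rfl⟩
  | succ r ih =>
    intro V _ _ c hcomm hstep v hv
    have hv0 : v ∈ fx (c 0) := mem_fx.mpr (hv 0)
    obtain ⟨w', hw'⟩ := ih (fx (c 0)) (rst c hcomm) (rst_commute c hcomm)
      (rst_step c hcomm hstep) ⟨v, hv0⟩ (fun j => Subtype.ext (hv j.succ))
    obtain ⟨w, -, hw⟩ := hstep 0 (w' : V) (fun i hi => by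
      have : i = 0 := Fin.le_zero_iff.mp hi
      rw [this]
      exact mem_fx.mp w'.2)
    refine ⟨w, ?_⟩
    have h1 := congrArg Subtype.val hw'
    rw [coe_nmTot_rst] at h1
    rw [nmTot_succ, Module.End.mul_apply]
    have h2 := (commute_nmTot m (fun j : Fin r => c j.succ)
      (fun j => commute_nm m (hcomm 0 j.succ))).eq
    have h3 := congrArg (fun f : Module.End A V => f w) h2
    simp only [Module.End.mul_apply] at h3
    rw [h3, hw]
    exact h1

/-- linear independence and spanning of a finite family, as bijectivity of the sum map. -/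
theorem bijective_sum_of_li_span {V : Type*} [AddCommGroup V] [Module A V] {κ : Type*}
    [Fintype κ] (F : κ → V) (hli : LinearIndependent A F)
    (hsp : Submodule.span A (Set.range F) = ⊤) :
    Function.Bijective (fun f : κ → A => ∑ x, f x • F x) := by
  constructor
  · intro f g hfg
    have h0 : ∑ x, (f - g) x • F x = 0 := by
      simp only [Pi.sub_apply, sub_smul, Finset.sum_sub_distrib]
      exact sub_eq_zero.mpr hfg
    have := Fintype.linearIndependent_iff.mp hli (f - g) h0
    funext x
    exact sub_eq_zero.mp (this x)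
  · intro v
    have hv : v ∈ Submodule.span A (Set.range F) := by rw [hsp]; trivial
    obtain ⟨f, hf⟩ := (Submodule.mem_span_range_iff_exists_fun A).mp hv
    exact ⟨f, hf⟩

/-- **TOWER, End-format, for given lifts.**  If `b i` has total norm `e i`, then the
`c ^ x (b i)` form an `A`-basis of `V`. -/
theorem tower_basis_of_lift {p : ℕ} [Fact p.Prime] (n r : ℕ)
    {V : Type u} [AddCommGroup V] [Module A V] [Finite V]
    (hV : ∀ v : V, ∃ k : ℕ, (p ^ k) • v = 0)
    (c : Fin r → Module.End A V) (hcomm : ∀ i j, Commute (c i) (c j))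
    (hc : ∀ j, c j ^ (p ^ n) = 1)
    (hstep : ∀ (j : Fin r) (v : V), (∀ i, i ≤ j → c i v = v) →
        ∃ w, (∀ i, i < j → c i w = w) ∧ nm (p ^ n) (c j) w = v)
    (e : ι → V) (he_li : LinearIndependent A e)
    (he_span : ∀ v, (∀ j, c j v = v) → v ∈ Submodule.span A (Set.range e))
    (b : ι → V) (hb : ∀ i, nmTot (p ^ n) c (b i) = e i) :
    LinearIndependent A (fam (p ^ n) c b) ∧
      Submodule.span A (Set.range (fam (p ^ n) c b)) = ⊤ ∧
      Function.Bijective
        (fun f : ι × (Fin r → Fin (p ^ n)) → A => ∑ x, f x • fam (p ^ n) c b x) := by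
  have he : (fun i => nmTot (p ^ n) c (b i)) = e := funext hb
  obtain ⟨h1, h2⟩ := tower_aux n r V hV c hcomm hc hstep b (by rw [he]; exact he_li)
    (by rw [he]; exact he_span)
  exact ⟨h1, h2, bijective_sum_of_li_span _ h1 h2⟩

/-- **TOWER, End-format.** -/
theorem tower_basis {p : ℕ} [Fact p.Prime] (n r : ℕ)
    {V : Type u} [AddCommGroup V] [Module A V] [Finite V]
    (hV : ∀ v : V, ∃ k : ℕ, (p ^ k) • v = 0)
    (c : Fin r → Module.End A V) (hcomm : ∀ i j, Commute (c i) (c j))
    (hc : ∀ j, c j ^ (p ^ n) = 1)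
    (hstep : ∀ (j : Fin r) (v : V), (∀ i, i ≤ j → c i v = v) →
        ∃ w, (∀ i, i < j → c i w = w) ∧ nm (p ^ n) (c j) w = v)
    (e : ι → V) (he_fix : ∀ i j, c j (e i) = e i) (he_li : LinearIndependent A e)
    (he_span : ∀ v, (∀ j, c j v = v) → v ∈ Submodule.span A (Set.range e)) :
    ∃ b : ι → V, (∀ i, nmTot (p ^ n) c (b i) = e i) ∧
      LinearIndependent A (fam (p ^ n) c b) ∧
      Submodule.span A (Set.range (fam (p ^ n) c b)) = ⊤ ∧
      Function.Bijective
        (fun f : ι × (Fin r → Fin (p ^ n)) → A => ∑ x, f x • fam (p ^ n) c b x) := by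
  have hex : ∀ i, ∃ w, nmTot (p ^ n) c w = e i := fun i =>
    exists_nmTot_eq (p ^ n) r V c hcomm hstep (e i) (he_fix i)
  choose b hb using hex
  exact ⟨b, hb, tower_basis_of_lift n r hV c hcomm hc hstep e he_li he_span b hb⟩

end main

section group

variable {A : Type*} [CommRing A] {ι : Type*} [Fintype ι]

/-- the total norm as a sum over the box `(Fin m) ^ r`. -/
theorem nmTot_apply_eq_sum (m : ℕ) {V : Type*} [AddCommGroup V] [Module A V] :
    ∀ (r : ℕ) (c : Fin r → Module.End A V) (v : V),
      nmTot m c v = ∑ x : Fin r → Fin m, mon c (fun j => (x j : ℕ)) v := by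
  intro r
  induction r with
  | zero =>
    intro c v
    rw [nmTot_zero]
    simp [mon_zero]
  | succ r ih =>
    intro c v
    rw [nmTot_succ, Module.End.mul_apply, ih, nm_apply,
      ← (Fin.consEquiv fun _ : Fin (r + 1) => Fin m).sum_comp, Fintype.sum_prod_type,
      ← Fin.sum_univ_eq_sum_range (fun k => (c 0 ^ k)
        (∑ x : Fin r → Fin m, mon (fun j => c j.succ) (fun j => (x j : ℕ)) v)) m]
    refine Finset.sum_congr rfl fun k _ => ?_
    rw [map_sum]
    refine Finset.sum_congr rfl fun x _ => ?_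
    rw [mon_succ, Module.End.mul_apply]
    rfl

variable {V : Type u} [AddCommGroup V] [Module A V]
  {Δ : Type*} [CommMonoid Δ] [DistribMulAction Δ V] [SMulCommClass Δ A V]

theorem toModuleEnd_apply' (d : Δ) (v : V) : DistribMulAction.toModuleEnd A V d v = d • v := rfl

theorem mon_toModuleEnd {r : ℕ} (g : Fin r → Δ) (x : Fin r → ℕ) :
    mon (fun j => DistribMulAction.toModuleEnd A V (g j)) x
      = DistribMulAction.toModuleEnd A V (∏ j, g j ^ x j) := by
  rw [mon, ← List.prod_ofFn, map_list_prod, List.map_ofFn]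
  congr 1
  congr 1
  funext j
  exact (map_pow _ _ _).symm

theorem nm_toModuleEnd (m : ℕ) (d : Δ) (v : V) :
    nm m (DistribMulAction.toModuleEnd A V d) v = ∑ k ∈ Finset.range m, d ^ k • v := by
  rw [nm_apply]
  refine Finset.sum_congr rfl fun k _ => ?_
  rw [← map_pow]
  rfl

/-- **TOWER, group-format.**  `Δ` a commutative monoid (group) acting `A`-linearly on the finite
`p`-group `V`, `g 0, …, g (r-1) ∈ Δ` with `g j ^ (p ^ n)` acting trivially.  If every layer norm
`∑_{k < p^n} g j ^ k` maps the common fixed points of `g 0, …, g (j-1)` onto those of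
`g 0, …, g j`, and the totally fixed elements are free over `A` with basis `e`, then there are
`b i` with total norm `e i` such that the `g ^ x • b i` (`x ∈ (Fin (p^n))^r`) form an `A`-basis
of `V`. -/
theorem tower_basis_group {p : ℕ} [Fact p.Prime] (n r : ℕ) [Finite V]
    (hV : ∀ v : V, ∃ k : ℕ, (p ^ k) • v = 0)
    (g : Fin r → Δ) (hg : ∀ j (v : V), g j ^ (p ^ n) • v = v)
    (hstep : ∀ (j : Fin r) (v : V), (∀ i, i ≤ j → g i • v = v) →
        ∃ w, (∀ i, i < j → g i • w = w) ∧ ∑ k ∈ Finset.range (p ^ n), g j ^ k • w = v)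
    (e : ι → V) (he_fix : ∀ i j, g j • e i = e i) (he_li : LinearIndependent A e)
    (he_span : ∀ v, (∀ j, g j • v = v) → v ∈ Submodule.span A (Set.range e)) :
    ∃ b : ι → V,
      (∀ i, ∑ x : Fin r → Fin (p ^ n), (∏ j, g j ^ (x j : ℕ)) • b i = e i) ∧
      LinearIndependent A
        (fun x : ι × (Fin r → Fin (p ^ n)) => (∏ j, g j ^ (x.2 j : ℕ)) • b x.1) ∧
      Submodule.span A (Set.range
        (fun x : ι × (Fin r → Fin (p ^ n)) => (∏ j, g j ^ (x.2 j : ℕ)) • b x.1)) = ⊤ ∧
      Function.Bijective (fun f : ι × (Fin r → Fin (p ^ n)) → A =>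
        ∑ x, f x • (∏ j, g j ^ (x.2 j : ℕ)) • b x.1) := by
  set c : Fin r → Module.End A V := fun j => DistribMulAction.toModuleEnd A V (g j) with hc
  have hcomm : ∀ i j, Commute (c i) (c j) := fun i j =>
    (Commute.all (g i) (g j)).map (DistribMulAction.toModuleEnd A V)
  have hcp : ∀ j, c j ^ (p ^ n) = 1 := by
    intro j
    apply LinearMap.ext
    intro v
    rw [hc, ← map_pow]
    exact hg j v
  have hstep' : ∀ (j : Fin r) (v : V), (∀ i, i ≤ j → c i v = v) →
      ∃ w, (∀ i, i < j → c i w = w) ∧ nm (p ^ n) (c j) w = v := by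
    intro j v hv
    obtain ⟨w, hw1, hw2⟩ := hstep j v hv
    exact ⟨w, hw1, by rw [hc, nm_toModuleEnd]; exact hw2⟩
  obtain ⟨b, hb, h1, h2, h3⟩ := tower_basis n r hV c hcomm hcp hstep' e he_fix he_li he_span
  have hfam : fam (p ^ n) c b
      = fun x : ι × (Fin r → Fin (p ^ n)) => (∏ j, g j ^ (x.2 j : ℕ)) • b x.1 := by
    funext x
    rw [fam, hc, mon_toModuleEnd]
    rfl
  refine ⟨b, ?_, ?_, ?_, ?_⟩
  · intro i
    rw [← hb i, nmTot_apply_eq_sum]
    refine Finset.sum_congr rfl fun x _ => ?_
    rw [hc, mon_toModuleEnd]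
    rfl
  · rw [← hfam]
    exact h1
  · rw [← hfam]
    exact h2
  · have : (fun f : ι × (Fin r → Fin (p ^ n)) → A =>
        ∑ x, f x • (∏ j, g j ^ (x.2 j : ℕ)) • b x.1)
        = fun f : ι × (Fin r → Fin (p ^ n)) → A => ∑ x, f x • fam (p ^ n) c b x := by
      rw [hfam]
    rw [this]
    exact h3

end group

end Fermat.Agent.S59.TWH.H90
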