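import Mathlib
import Fermat.Agent.S59.TWDatum

/-!
# S59 TW-DATUM leaf DIV (helper14)

`stmt_DIV` : for a complete noetherian local ring `𝒪` with `(p : 𝒪) ∈ 𝔪`, `p` prime,
every power series in `𝒪⟦X₁,…,X_r⟧` is congruent modulo
`J_n = ((1 + X_j)^(p^n) - 1)_j` to an `𝒪`-combination of the `∏_j (1 + X_j)^(e_j)`, `e_j < p^n`.

More generally (`stmt_DIV_of_fg`): any commutative ring `𝒪` complete for a finitely generated
ideal `I` containing `p`.
-/

set_option autoImplicit false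
set_option linter.style.haveILetI false

open MvPowerSeries

namespace Fermat.Agent.S59.TWH.H14

section Pi

variable {𝒪 : Type*} [CommRing 𝒪]

theorem forall_mem_of_mem_smul_top_pi {ι : Type*} {J : Ideal 𝒪} (g : ι → 𝒪)
    (hg : g ∈ (J • ⊤ : Submodule 𝒪 (ι → 𝒪))) (i : ι) : g i ∈ J := by
  induction hg using Submodule.smul_induction_on' with
  | smul a ha m _ => exact J.mul_mem_right _ ha
  | add x _ y _ hx hy => exact J.add_mem hx hy

theorem mem_smul_top_pi_of_forall {ι : Type*} {J : Ideal 𝒪} (hJ : J.FG) (g : ι → 𝒪)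
    (hg : ∀ i, g i ∈ J) : g ∈ (J • ⊤ : Submodule 𝒪 (ι → 𝒪)) := by
  classical
  obtain ⟨s, rfl⟩ := hJ
  have h1 : ∀ i, ∃ c : 𝒪 → 𝒪, g i = ∑ a ∈ s, c a * a := by
    intro i
    have h := hg i
    rw [Submodule.mem_span_finset] at h
    obtain ⟨f, -, hf⟩ := h
    exact ⟨f, by simpa [smul_eq_mul] using hf.symm⟩
  choose c hc using h1
  have h2 : g = ∑ a ∈ s, a • (fun i => c i a) := by
    ext i
    simp only [Finset.sum_apply, Pi.smul_apply, smul_eq_mul]
    rw [hc i]
    exact Finset.sum_congr rfl fun a _ => mul_comm _ _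
  rw [h2]
  exact Submodule.sum_mem _ fun a ha =>
    Submodule.smul_mem_smul (Ideal.subset_span ha) Submodule.mem_top

theorem isHausdorff_pi (I : Ideal 𝒪) (ι : Type*) [IsHausdorff I 𝒪] : IsHausdorff I (ι → 𝒪) := by
  refine ⟨fun x hx => funext fun i => ?_⟩
  apply IsHausdorff.haus' (I := I) (x i)
  intro n
  have h := hx n
  rw [SModEq.zero] at h ⊢
  have h' := forall_mem_of_mem_smul_top_pi x h i
  simpa using h'

theorem isPrecomplete_pi {I : Ideal 𝒪} (hI : I.FG) (ι : Type*) [IsPrecomplete I 𝒪] :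
    IsPrecomplete I (ι → 𝒪) := by
  refine ⟨fun f hf => ?_⟩
  have h1 : ∀ i, ∃ L : 𝒪, ∀ n, f n i ≡ L [SMOD (I ^ n • ⊤ : Submodule 𝒪 𝒪)] := by
    intro i
    apply IsPrecomplete.prec' (fun n => f n i)
    intro m n hmn
    have h := hf hmn
    rw [SModEq.sub_mem] at h ⊢
    have h' := forall_mem_of_mem_smul_top_pi _ h i
    simpa using h'
  choose L hL using h1
  refine ⟨L, fun n => ?_⟩
  rw [SModEq.sub_mem]
  apply mem_smul_top_pi_of_forall (hI.pow)
  intro i
  have h := hL i n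
  rw [SModEq.sub_mem] at h
  simpa using h

end Pi

section Split

variable {𝒪 : Type*} [CommRing 𝒪] {r : ℕ}

/-- the part of `t` of degree `< N` in `X_j` -/
noncomputable def truncAt (j : Fin r) (N : ℕ) (t : MvPowerSeries (Fin r) 𝒪) :
    MvPowerSeries (Fin r) 𝒪 :=
  fun m => if m j < N then coeff m t else 0

/-- the quotient of `t` by `X_j^N` -/
noncomputable def shiftAt (j : Fin r) (N : ℕ) (t : MvPowerSeries (Fin r) 𝒪) :
    MvPowerSeries (Fin r) 𝒪 :=
  fun m => coeff (m + Finsupp.single j N) t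

theorem coeff_truncAt (j : Fin r) (N : ℕ) (t : MvPowerSeries (Fin r) 𝒪) (m : Fin r →₀ ℕ) :
    coeff m (truncAt j N t) = if m j < N then coeff m t else 0 := rfl

theorem coeff_shiftAt (j : Fin r) (N : ℕ) (t : MvPowerSeries (Fin r) 𝒪) (m : Fin r →₀ ℕ) :
    coeff m (shiftAt j N t) = coeff (m + Finsupp.single j N) t := rfl

/-- single-variable division by `X_j^N` -/
theorem exists_div_X_pow (j : Fin r) (N : ℕ) (t : MvPowerSeries (Fin r) 𝒪) :
    ∃ t' d : MvPowerSeries (Fin r) 𝒪, t = t' + X j ^ N * d ∧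
      ∀ m, coeff m t' = if m j < N then coeff m t else 0 := by
  classical
  refine ⟨truncAt j N t, shiftAt j N t, ?_, fun m => rfl⟩
  ext m
  rw [map_add, X_pow_eq, coeff_monomial_mul, one_mul, coeff_truncAt, coeff_shiftAt]
  by_cases h : m j < N
  · have h' : ¬ (Finsupp.single j N ≤ m) := by
      intro hle
      have := hle j
      simp at this
      omega
    rw [if_pos h, if_neg h', add_zero]
  · have h' : Finsupp.single j N ≤ m := by
      intro i
      by_cases hij : i = j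
      · subst hij; simp; omega
      · simp [Ne.symm hij]
    rw [if_neg h, if_pos h', zero_add, tsub_add_cancel_of_le h']

/-- division by all the `X_j^N`, `j ∈ S` -/
theorem exists_div_X_pow_finset (N : ℕ) (c : MvPowerSeries (Fin r) 𝒪) (S : Finset (Fin r)) :
    ∃ (t : MvPowerSeries (Fin r) 𝒪) (d : Fin r → MvPowerSeries (Fin r) 𝒪),
      c = t + ∑ j ∈ S, X j ^ N * d j ∧
      ∀ m, (∃ j ∈ S, N ≤ m j) → coeff m t = 0 := by
  classical
  induction S using Finset.induction_on with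
  | empty => exact ⟨c, fun _ => 0, by simp, by simp⟩
  | insert j S hj ih =>
    obtain ⟨t, d, hc, ht⟩ := ih
    obtain ⟨t', d', htt', ht'⟩ := exists_div_X_pow j N t
    refine ⟨t', Function.update d j d', ?_, ?_⟩
    · rw [Finset.sum_insert hj, Function.update_self, hc, htt']
      have : ∑ x ∈ S, X x ^ N * Function.update d j d' x = ∑ x ∈ S, X x ^ N * d x := by
        refine Finset.sum_congr rfl fun x hx => ?_
        rw [Function.update_of_ne]
        rintro rfl
        exact hj hx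
      rw [this]
      ring
    · rintro m ⟨i, hi, hNi⟩
      rw [ht']
      split_ifs with h
      · rcases Finset.mem_insert.mp hi with rfl | hiS
        · omega
        · exact ht m ⟨i, hiS, hNi⟩
      · rfl

/-- the exponent vector of `e : Fin r → Fin N` -/
noncomputable def toF {N : ℕ} (e : Fin r → Fin N) : Fin r →₀ ℕ :=
  Finsupp.equivFunOnFinite.symm (fun j => (e j : ℕ))

@[simp] theorem toF_apply {N : ℕ} (e : Fin r → Fin N) (j : Fin r) : toF e j = (e j : ℕ) := rfl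

theorem toF_injective {N : ℕ} : Function.Injective (toF : (Fin r → Fin N) → (Fin r →₀ ℕ)) := by
  intro e e' h
  funext j
  have := DFunLike.congr_fun h j
  simp only [toF_apply] at this
  exact Fin.ext this

theorem prod_X_pow_eq_monomial {N : ℕ} (e : Fin r → Fin N) :
    (∏ j, (X j : MvPowerSeries (Fin r) 𝒪) ^ (e j : ℕ)) = monomial (toF e) 1 := by
  rw [monomial_eq', map_one, one_mul, Finsupp.prod_fintype]
  · rfl
  · intro i; simp

/-- a power series all of whose exponents are `< N` is a combination of monomials -/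
theorem eq_sum_monomials (N : ℕ) (t : MvPowerSeries (Fin r) 𝒪)
    (ht : ∀ m, (∃ j, N ≤ m j) → coeff m t = 0) :
    t = ∑ e : Fin r → Fin N, C (coeff (toF e) t) * ∏ j, (X j) ^ (e j : ℕ) := by
  classical
  ext m
  rw [map_sum]
  simp only [prod_X_pow_eq_monomial, coeff_C_mul, coeff_monomial]
  by_cases h : ∃ j, N ≤ m j
  · rw [ht m h]
    symm
    refine Finset.sum_eq_zero fun e _ => ?_
    rw [if_neg, mul_zero]
    rintro rfl
    obtain ⟨j, hj⟩ := h
    have := (e j).2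
    simp only [toF_apply] at hj
    omega
  · simp only [not_exists, not_le] at h
    rw [Finset.sum_eq_single (fun j => ⟨m j, h j⟩)]
    · have : toF (fun j => (⟨m j, h j⟩ : Fin N)) = m := by
        ext j; simp
      rw [this, if_pos rfl, mul_one]
    · intro e _ he
      rw [if_neg, mul_zero]
      rintro rfl
      apply he
      funext j
      exact Fin.ext (by simp)
    · intro h'
      exact absurd (Finset.mem_univ _) h'

/-- **SPLIT** -/
theorem exists_split (N : ℕ) (c : MvPowerSeries (Fin r) 𝒪) :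
    ∃ (a : (Fin r → Fin N) → 𝒪) (d : Fin r → MvPowerSeries (Fin r) 𝒪),
      c = ∑ e : Fin r → Fin N, C (a e) * ∏ j, (X j) ^ (e j : ℕ) + ∑ j, X j ^ N * d j := by
  obtain ⟨t, d, hc, ht⟩ := exists_div_X_pow_finset N c Finset.univ
  refine ⟨fun e => coeff (toF e) t, d, ?_⟩
  rw [← eq_sum_monomials N t (fun m ⟨j, hj⟩ => ht m ⟨j, Finset.mem_univ _, hj⟩)]
  exact hc

end Split

section Basis

variable {𝒪 : Type*} [CommRing 𝒪] {R : Type*} [CommRing R] [Algebra 𝒪 R]

theorem pow_mem_span_one_add_pow (x : R) (N k : ℕ) (hk : k < N) :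
    x ^ k ∈ Submodule.span 𝒪 (Set.range fun i : Fin N => (1 + x) ^ (i : ℕ)) := by
  have h : x ^ k = ((1 + x) + (-1)) ^ k := by ring
  rw [h, add_pow]
  refine Submodule.sum_mem _ fun i hi => ?_
  have hi' : i < N := by
    have := Finset.mem_range.mp hi
    omega
  have h2 : (1 + x) ^ i * (-1) ^ (k - i) * (k.choose i : R)
      = ((-1) ^ (k - i) * (k.choose i : 𝒪)) • (1 + x) ^ i := by
    rw [Algebra.smul_def, map_mul, map_pow, map_neg, map_one, map_natCast]
    ring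
  rw [h2]
  exact Submodule.smul_mem _ _ (Submodule.subset_span ⟨⟨i, hi'⟩, rfl⟩)

theorem prod_mem_span_prod {r N : ℕ} (y u : Fin r → R)
    (hu : ∀ j, u j ∈ Submodule.span 𝒪 (Set.range fun i : Fin N => (y j) ^ (i : ℕ))) :
    ∏ j, u j ∈ Submodule.span 𝒪 (Set.range fun e : Fin r → Fin N => ∏ j, (y j) ^ (e j : ℕ)) := by
  classical
  have h1 : ∀ j, ∃ c : Fin N → 𝒪, ∑ i, c i • (y j) ^ (i : ℕ) = u j := fun j =>
    (Submodule.mem_span_range_iff_exists_fun 𝒪).mp (hu j)
  choose c hc using h1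
  have h2 : ∏ j, u j = ∑ e : Fin r → Fin N, (∏ j, c j (e j)) • ∏ j, (y j) ^ (e j : ℕ) := by
    simp_rw [← hc]
    rw [Finset.prod_univ_sum]
    simp only [Fintype.piFinset_univ]
    refine Finset.sum_congr rfl fun e _ => ?_
    simp only [Algebra.smul_def, Finset.prod_mul_distrib, map_prod]
  rw [h2]
  exact Submodule.sum_mem _ fun e _ => Submodule.smul_mem _ _ (Submodule.subset_span ⟨e, rfl⟩)

theorem exists_pow_prime_pow_eq {p : ℕ} (hp : p.Prime) (n : ℕ) (x : R) :
    ∃ g : R, x ^ (p ^ n) = ((1 + x) ^ (p ^ n) - 1) - (p : R) * g := by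
  obtain ⟨g, hg⟩ := exists_add_pow_prime_pow_eq hp 1 x n
  refine ⟨1 * x * g, ?_⟩
  rw [hg, one_pow]
  ring

end Basis

section Main

variable (𝒪 : Type) [CommRing 𝒪] (p r n : ℕ)

/-- the `𝒪`-linear map `(a, d) ↦ Σ a_e Y^e + Σ d_j f_j` -/
noncomputable def divMap :
    ((Fin r → Fin (p ^ n)) → 𝒪) × (Fin r → MvPowerSeries (Fin r) 𝒪) →ₗ[𝒪]
      MvPowerSeries (Fin r) 𝒪 :=
  (Fintype.linearCombination 𝒪 (fun e : Fin r → Fin (p ^ n) => onePlusXPow 𝒪 e)).coprod
    ((Fintype.linearCombination (MvPowerSeries (Fin r) 𝒪)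
      (fun j : Fin r => ((1 + X j) ^ (p ^ n) - 1 : MvPowerSeries (Fin r) 𝒪))).restrictScalars 𝒪)

theorem divMap_apply (a : (Fin r → Fin (p ^ n)) → 𝒪) (d : Fin r → MvPowerSeries (Fin r) 𝒪) :
    divMap 𝒪 p r n (a, d) = ∑ e, C (a e) * onePlusXPow 𝒪 e +
      ∑ j, d j * ((1 + X j) ^ (p ^ n) - 1) := by
  simp [divMap, Fintype.linearCombination_apply, smul_eq_C_mul]

/-- the source as a Pi type -/
noncomputable def divEquiv :
    ((Fin r → Fin (p ^ n)) ⊕ (Fin r × (Fin r →₀ ℕ)) → 𝒪) ≃ₗ[𝒪]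
      ((Fin r → Fin (p ^ n)) → 𝒪) × (Fin r → MvPowerSeries (Fin r) 𝒪) :=
  (LinearEquiv.sumArrowLequivProdArrow _ _ 𝒪 𝒪).trans
    ((LinearEquiv.refl 𝒪 _).prodCongr (LinearEquiv.curry 𝒪 𝒪 (Fin r) (Fin r →₀ ℕ)))

variable {p} in
theorem exists_step (I : Ideal 𝒪) (hp : p.Prime) (hpI : (p : 𝒪) ∈ I)
    (c : MvPowerSeries (Fin r) 𝒪) :
    ∃ x, c - divMap 𝒪 p r n x ∈ (I • ⊤ : Submodule 𝒪 (MvPowerSeries (Fin r) 𝒪)) := by
  obtain ⟨a, d, hc⟩ := exists_split (p ^ n) c
  have h1 : ∑ e : Fin r → Fin (p ^ n),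
      C (a e) * ∏ j, (X j : MvPowerSeries (Fin r) 𝒪) ^ (e j : ℕ) ∈
        Submodule.span 𝒪 (Set.range fun e : Fin r → Fin (p ^ n) => onePlusXPow 𝒪 e) := by
    refine Submodule.sum_mem _ fun e _ => ?_
    rw [← smul_eq_C_mul]
    refine Submodule.smul_mem _ _ ?_
    exact prod_mem_span_prod (fun j => 1 + X j) (fun j => X j ^ (e j : ℕ))
      (fun j => pow_mem_span_one_add_pow (X j) (p ^ n) (e j) (e j).2)
  rw [← Fintype.range_linearCombination] at h1
  obtain ⟨a', ha'⟩ := h1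
  choose g hg using fun j : Fin r =>
    exists_pow_prime_pow_eq (R := MvPowerSeries (Fin r) 𝒪) hp n (X j)
  refine ⟨(a', d), ?_⟩
  have h2 : c - divMap 𝒪 p r n (a', d) = (p : 𝒪) • (- ∑ j, g j * d j) := by
    have h3 : divMap 𝒪 p r n (a', d) =
        ∑ e : Fin r → Fin (p ^ n), C (a e) * ∏ j, (X j : MvPowerSeries (Fin r) 𝒪) ^ (e j : ℕ) +
        ∑ j, d j * ((1 + X j) ^ (p ^ n) - 1) := by
      rw [← ha']
      simp [divMap, Fintype.linearCombination_apply]
    rw [h3, hc]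
    simp_rw [hg]
    rw [Algebra.smul_def, map_natCast, mul_neg, Finset.mul_sum, ← Finset.sum_neg_distrib,
      add_sub_add_left_eq_sub, ← Finset.sum_sub_distrib]
    refine Finset.sum_congr rfl fun j _ => ?_
    ring
  rw [h2]
  exact Submodule.smul_mem_smul hpI Submodule.mem_top

variable {p} in
/-- **DIV**, general form: `𝒪` complete for a finitely generated ideal containing `p`. -/
theorem stmt_DIV_of_fg (I : Ideal 𝒪) (hI : I.FG) [IsAdicComplete I 𝒪] (hp : p.Prime)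
    (hpI : (p : 𝒪) ∈ I) : Stmt_DIV 𝒪 p r n := by
  intro c
  haveI : IsPrecomplete I ((Fin r → Fin (p ^ n)) ⊕ (Fin r × (Fin r →₀ ℕ)) → 𝒪) :=
    isPrecomplete_pi hI _
  haveI : IsHausdorff I (MvPowerSeries (Fin r) 𝒪) := isHausdorff_pi I (Fin r →₀ ℕ)
  have hsurj : Function.Surjective
      ((divMap 𝒪 p r n) ∘ₗ (divEquiv 𝒪 p r n).toLinearMap) := by
    apply surjective_of_mkQ_comp_surjective (I := I)
    intro y
    obtain ⟨c', rfl⟩ := Submodule.mkQ_surjective _ y
    obtain ⟨x, hx⟩ := exists_step 𝒪 r n I hp hpI c'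
    refine ⟨(divEquiv 𝒪 p r n).symm x, ?_⟩
    simp only [LinearMap.coe_comp, Function.comp_apply, LinearEquiv.coe_coe,
      LinearEquiv.apply_symm_apply, Submodule.mkQ_apply]
    rw [eq_comm, Submodule.Quotient.eq]
    exact hx
  obtain ⟨x, hx⟩ := hsurj c
  obtain ⟨⟨a, d⟩, had⟩ : ∃ ad, ad = divEquiv 𝒪 p r n x := ⟨_, rfl⟩
  refine ⟨a, ?_⟩
  have h : c - ∑ e, C (a e) * onePlusXPow 𝒪 e = ∑ j, d j * ((1 + X j) ^ (p ^ n) - 1) := by
    rw [← hx, LinearMap.comp_apply, LinearEquiv.coe_coe, ← had, divMap_apply]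
    ring
  rw [h, twIdeal]
  exact Ideal.sum_mem _ fun j _ => Ideal.mul_mem_left _ _ (Ideal.subset_span ⟨j, rfl⟩)

variable {p} in
/-- **DIV** for a complete noetherian local ring with `p ∈ 𝔪`. -/
theorem stmt_DIV [IsLocalRing 𝒪] [IsNoetherianRing 𝒪]
    [IsAdicComplete (IsLocalRing.maximalIdeal 𝒪) 𝒪] (hp : p.Prime)
    (hpm : (p : 𝒪) ∈ IsLocalRing.maximalIdeal 𝒪) : Stmt_DIV 𝒪 p r n :=
  stmt_DIV_of_fg 𝒪 r n (IsLocalRing.maximalIdeal 𝒪) (IsNoetherian.noetherian _) hp hpm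

end Main

end Fermat.Agent.S59.TWH.H14
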