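import Mathlib

/-!
# S59 TW-HECKE leaf O-LIFT (helper14)

Lifting a basis from the residue field: for a local ring `𝒪` and a finite flat (e.g. finite free)
`𝒪`-module `M`, a finite family `v : X → M` whose reduction is a `k`-basis of `M / 𝔪 M`
is an `𝒪`-basis of `M`.

* `olift_of_mod` : hypotheses stated elementwise modulo `𝔪 • ⊤`.
* `olift` : hypotheses stated through a reduction map `red : M →ₗ[𝒪] V` to a module `V` over a
  field `k` with `𝒪 ↠ k` and `ker red ≤ 𝔪 • ⊤` (`red` need not be surjective).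
* `olift_smul` : the same for a module over an `𝒪`-algebra `A`, in the shape
  `∑ x, (algebraMap 𝒪 A (f x) * u x) • b x`.
All conclusions have the shape `Function.Bijective (fun f : X → 𝒪 => ∑ x, f x • v x)`.
-/

set_option autoImplicit false

open IsLocalRing TensorProduct

namespace Fermat.Agent.S59.TWH.H14

variable {𝒪 : Type*} [CommRing 𝒪] [IsLocalRing 𝒪]
  {M : Type*} [AddCommGroup M] [Module 𝒪 M] [Module.Finite 𝒪 M] [Module.Flat 𝒪 M]
  {X : Type*} [Fintype X]

omit [Module.Finite 𝒪 M] in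
theorem linearIndependent_of_mod (v : X → M)
    (hind : ∀ f : X → 𝒪, ∑ x, f x • v x ∈ (maximalIdeal 𝒪 • ⊤ : Submodule 𝒪 M) →
      ∀ x, f x ∈ maximalIdeal 𝒪) : LinearIndependent 𝒪 v := by
  classical
  apply Module.IsLocalRing.linearIndependent_of_flat
  rw [Fintype.linearIndependent_iff]
  intro g hg x
  have h1 : ∀ x, ∃ a : 𝒪, residue 𝒪 a = g x := fun x => residue_surjective (g x)
  choose f hf using h1
  have h2 : ∑ x, g x • (TensorProduct.mk 𝒪 (ResidueField 𝒪) M 1 ∘ v) x
      = TensorProduct.mk 𝒪 (ResidueField 𝒪) M 1 (∑ x, f x • v x) := by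
    rw [map_sum]
    refine Finset.sum_congr rfl fun x _ => ?_
    rw [Function.comp_apply, TensorProduct.mk_apply, TensorProduct.mk_apply,
      TensorProduct.smul_tmul', ← hf x, TensorProduct.tmul_smul, TensorProduct.smul_tmul',
      smul_eq_mul, mul_one, Algebra.smul_def, mul_one]
    rfl
  rw [h2] at hg
  have h3 : ∑ x, f x • v x ∈ LinearMap.ker (TensorProduct.mk 𝒪 (𝒪 ⧸ maximalIdeal 𝒪) M 1) := hg
  rw [LinearMap.ker_tensorProductMk] at h3
  have h4 := hind f h3 x
  rw [← hf x]
  exact (residue_eq_zero_iff _).mpr h4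

omit [Module.Flat 𝒪 M] in
theorem span_eq_top_of_mod (v : X → M)
    (hspan : ∀ m : M, ∃ f : X → 𝒪, m - ∑ x, f x • v x ∈ (maximalIdeal 𝒪 • ⊤ : Submodule 𝒪 M)) :
    Submodule.span 𝒪 (Set.range v) = ⊤ := by
  rw [← IsLocalRing.map_mkQ_eq_top, eq_top_iff]
  rintro y -
  obtain ⟨m, rfl⟩ := Submodule.mkQ_surjective _ y
  obtain ⟨f, hf⟩ := hspan m
  refine ⟨∑ x, f x • v x, ?_, ?_⟩
  · exact Submodule.sum_mem _ fun x _ =>
      Submodule.smul_mem _ _ (Submodule.subset_span ⟨x, rfl⟩)
  · rw [Submodule.mkQ_apply, Submodule.mkQ_apply, eq_comm, Submodule.Quotient.eq]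
    exact hf

/-- **O-LIFT**, elementwise form. -/
theorem olift_of_mod (v : X → M)
    (hspan : ∀ m : M, ∃ f : X → 𝒪, m - ∑ x, f x • v x ∈ (maximalIdeal 𝒪 • ⊤ : Submodule 𝒪 M))
    (hind : ∀ f : X → 𝒪, ∑ x, f x • v x ∈ (maximalIdeal 𝒪 • ⊤ : Submodule 𝒪 M) →
      ∀ x, f x ∈ maximalIdeal 𝒪) :
    Function.Bijective (fun f : X → 𝒪 => ∑ x, f x • v x) := by
  classical
  constructor
  · have h := linearIndependent_of_mod v hind
    rw [Fintype.linearIndependent_iff] at h
    intro f g hfg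
    have h1 : ∑ x, (f - g) x • v x = 0 := by
      simp only [Pi.sub_apply, sub_smul, Finset.sum_sub_distrib]
      exact sub_eq_zero.mpr hfg
    funext x
    exact sub_eq_zero.mp (h (f - g) h1 x)
  · intro m
    have h := span_eq_top_of_mod v hspan
    have hm : m ∈ Submodule.span 𝒪 (Set.range v) := h ▸ Submodule.mem_top
    obtain ⟨f, hf⟩ := (Submodule.mem_span_range_iff_exists_fun 𝒪).mp hm
    exact ⟨f, hf⟩

/-- **O-LIFT**, through a reduction map `red : M → V` with `V` a vector space over the residue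
field `k` (any field with `𝒪 ↠ k`), `ker red ≤ 𝔪 • ⊤`. -/
theorem olift {k : Type*} [Field k] [Algebra 𝒪 k] (hk : Function.Surjective (algebraMap 𝒪 k))
    {V : Type*} [AddCommGroup V] [Module 𝒪 V] [Module k V] [IsScalarTower 𝒪 k V]
    (red : M →ₗ[𝒪] V)
    (hker : ∀ m, red m = 0 → m ∈ (maximalIdeal 𝒪 • ⊤ : Submodule 𝒪 M))
    (v : X → M)
    (h : Function.Bijective (fun f : X → k => ∑ x, f x • red (v x))) :
    Function.Bijective (fun f : X → 𝒪 => ∑ x, f x • v x) := by
  classical
  have hm0 : ∀ a ∈ maximalIdeal 𝒪, algebraMap 𝒪 k a = 0 := by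
    intro a ha
    by_contra hne
    obtain ⟨b, hb⟩ := hk (algebraMap 𝒪 k a)⁻¹
    have h1 : algebraMap 𝒪 k (a * b - 1) = 0 := by
      rw [map_sub, map_mul, hb, map_one, mul_inv_cancel₀ hne, sub_self]
    have h2 : a * b ∈ maximalIdeal 𝒪 := Ideal.mul_mem_right _ _ ha
    have h3 : IsUnit (a * b - 1) := by
      have : IsUnit (1 - a * b) := by
        rcases IsLocalRing.isUnit_or_isUnit_one_sub_self (a * b) with hu | hu
        · exact absurd hu ((IsLocalRing.mem_maximalIdeal _).mp h2)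
        · exact hu
      have h4 : a * b - 1 = -(1 - a * b) := by ring
      rw [h4]
      exact this.neg
    have h5 := h3.map (algebraMap 𝒪 k)
    rw [h1] at h5
    exact not_isUnit_zero h5
  have hred_smul : ∀ (f : X → 𝒪), red (∑ x, f x • v x) =
      ∑ x, (algebraMap 𝒪 k (f x)) • red (v x) := by
    intro f
    rw [map_sum]
    refine Finset.sum_congr rfl fun x _ => ?_
    rw [map_smul, algebraMap_smul]
  have hred_mem : ∀ m ∈ (maximalIdeal 𝒪 • ⊤ : Submodule 𝒪 M), red m = 0 := by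
    intro m hm
    induction hm using Submodule.smul_induction_on' with
    | smul a ha n _ => rw [map_smul, ← algebraMap_smul k a (red n), hm0 a ha, zero_smul]
    | add x _ y _ hx hy => rw [map_add, hx, hy, add_zero]
  apply olift_of_mod v
  · intro m
    obtain ⟨g, hg⟩ := h.2 (red m)
    have h1 : ∀ x, ∃ a : 𝒪, algebraMap 𝒪 k a = g x := fun x => hk (g x)
    choose f hf using h1
    refine ⟨f, hker _ ?_⟩
    rw [map_sub, hred_smul, ← hg]
    simp only [hf, sub_self]
  · intro f hf x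
    have h1 := hred_mem _ hf
    rw [hred_smul] at h1
    have h2 : (fun x => algebraMap 𝒪 k (f x)) = 0 := by
      apply h.1
      simp only [Pi.zero_apply, zero_smul, Finset.sum_const_zero]
      exact h1
    have h3 : algebraMap 𝒪 k (f x) = 0 := congrFun h2 x
    by_contra hx
    have h4 : IsUnit (f x) := by
      by_contra hu
      exact hx ((IsLocalRing.mem_maximalIdeal _).mpr hu)
    have h5 := h4.map (algebraMap 𝒪 k)
    rw [h3] at h5
    exact not_isUnit_zero h5

/-- **O-LIFT** for a module `N` over an `𝒪`-algebra `A`, in the shape of `TWLevel.b_basis`. -/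
theorem olift_smul {k : Type*} [Field k] [Algebra 𝒪 k]
    (hk : Function.Surjective (algebraMap 𝒪 k))
    {A : Type*} [CommRing A] [Algebra 𝒪 A]
    {N : Type*} [AddCommGroup N] [Module A N] [Module 𝒪 N] [IsScalarTower 𝒪 A N]
    [Module.Finite 𝒪 N] [Module.Flat 𝒪 N]
    {V : Type*} [AddCommGroup V] [Module 𝒪 V] [Module k V] [IsScalarTower 𝒪 k V]
    (red : N →ₗ[𝒪] V)
    (hker : ∀ m, red m = 0 → m ∈ (maximalIdeal 𝒪 • ⊤ : Submodule 𝒪 N))
    (u : X → A) (b : X → N)
    (h : Function.Bijective (fun f : X → k => ∑ x, f x • red (u x • b x))) :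
    Function.Bijective (fun f : X → 𝒪 => ∑ x, (algebraMap 𝒪 A (f x) * u x) • b x) := by
  have h1 := olift hk red hker (fun x => u x • b x) h
  have h2 : (fun f : X → 𝒪 => ∑ x, (algebraMap 𝒪 A (f x) * u x) • b x) =
      (fun f : X → 𝒪 => ∑ x, f x • (u x • b x)) := by
    funext f
    refine Finset.sum_congr rfl fun x _ => ?_
    rw [mul_smul, algebraMap_smul]
  rw [h2]
  exact h1

end Fermat.Agent.S59.TWH.H14
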