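import Fermat.Agent.S59.TWH.AbsLG

/-!
# S59, package TW-HECKE: the abstract freeness criterion (ABS-FREE of `NOTES/plan/S59_TWH.md`)

* `eq_bot_of_fixed_cyclic` : fixed-point lemma for one automorphism of `p`-power order.
* `exists_pow_sub_one_eq_zero` : `c - 1` is nilpotent on a finite `p`-group.
* `sumMap_bijective`, `cyclic_basis` : the cyclic step of the freeness criterion
  (Hilbert 90 / invariants = pull-backs, norm surjective  ⟹  free over the group ring).
  Iterating over a tower of cyclic covers gives freeness over `A[Δ]` for `Δ` a product of cyclic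
  `p`-groups (the index type `ι` of the basis of `V₀` is arbitrary for this purpose).

All proofs are complete; only Mathlib and `AbsLG` are used.
-/

set_option autoImplicit false

namespace Fermat.Agent.S59.TWH

open MulAction

/-- Fixed-point lemma for a single automorphism of `p`-power order. -/
theorem eq_bot_of_fixed_cyclic
    {p : ℕ} [Fact p.Prime] {V : Type*} [AddCommGroup V] [Finite V]
    (hV : ∀ v : V, ∃ n : ℕ, (p ^ n) • v = 0)
    (c₀ : V →+ V) (a : ℕ) (hc₀ : ∀ v, (⇑c₀)^[p ^ a] v = v)
    (Z : AddSubgroup V) (hZ : ∀ z ∈ Z, c₀ z ∈ Z) (h0 : ∀ z ∈ Z, c₀ z = z → z = 0) : Z = ⊥ := by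
  classical
  have hpos : 0 < p ^ a := pow_pos (Fact.out : p.Prime).pos a
  obtain ⟨c, hcc⟩ : ∃ c : AddMonoid.End V, c = c₀ := ⟨c₀, rfl⟩
  have hc : c ^ (p ^ a) = 1 := by
    ext v
    rw [AddMonoid.End.coe_pow, hcc]
    exact hc₀ v
  subst hcc
  -- `c` as a unit
  let u : (AddMonoid.End V)ˣ :=
    { val := c
      inv := c ^ (p ^ a - 1)
      val_inv := by rw [← pow_succ', Nat.sub_add_cancel hpos, hc]
      inv_val := by rw [← pow_succ, Nat.sub_add_cancel hpos, hc] }
  have hu1 : u ^ (p ^ a) = 1 := by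
    apply Units.ext
    rw [Units.val_pow_eq_pow_val]
    exact hc
  let Δ := Subgroup.zpowers u
  have hΔ : IsPGroup p Δ := by
    intro g
    refine ⟨a, ?_⟩
    obtain ⟨k, hk⟩ := Subgroup.mem_zpowers_iff.mp g.2
    apply Subtype.ext
    show (g : (AddMonoid.End V)ˣ) ^ (p ^ a) = 1
    rw [← hk, ← zpow_natCast, ← zpow_mul, mul_comm, zpow_mul, zpow_natCast, hu1, one_zpow]
  -- every element of `Δ` is a natural power of `u`
  have hnat : ∀ g : Δ, ∃ m : ℕ, (g : (AddMonoid.End V)ˣ) = u ^ m := by
    intro g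
    obtain ⟨k, hk⟩ := Subgroup.mem_zpowers_iff.mp g.2
    refine ⟨(k % (p ^ a : ℕ)).toNat, ?_⟩
    rw [← hk]
    have hk2 : k = (k % (p ^ a : ℕ)) + (p ^ a : ℕ) * (k / (p ^ a : ℕ)) :=
      (Int.emod_add_mul_ediv k _).symm
    have hnn : 0 ≤ k % ((p ^ a : ℕ) : ℤ) := Int.emod_nonneg _ (by exact_mod_cast hpos.ne')
    conv_lhs => rw [hk2]
    rw [zpow_add, zpow_mul, zpow_natCast, hu1, one_zpow, mul_one]
    conv_lhs => rw [← Int.toNat_of_nonneg hnn]
    rw [zpow_natCast]
  have hsm : ∀ (g : Δ) (v : V), g • v = (g : (AddMonoid.End V)ˣ).1 v := fun _ _ => rfl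
  apply eq_bot_of_fixedPoints (Δ := Δ) hΔ hV Z
  · intro δ z hz
    obtain ⟨m, hm⟩ := hnat δ
    rw [hsm, hm, Units.val_pow_eq_pow_val]
    show (c ^ m) z ∈ Z
    clear hm
    induction m with
    | zero => simpa using hz
    | succ m ih =>
      rw [pow_succ']
      exact hZ _ ih
  · intro z hz hfix
    apply h0 z hz
    have := hfix ⟨u, Subgroup.mem_zpowers u⟩
    rw [hsm] at this
    exact this


section cyclic


variable {A : Type*} [CommRing A] {V : Type*} [AddCommGroup V] [Module A V]

/-- card of kernel times card of range. -/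
theorem card_ker_mul_card_range [Finite V] (f : V →ₗ[A] V) :
    Nat.card (LinearMap.ker f) * Nat.card (LinearMap.range f) = Nat.card V := by
  rw [Submodule.card_eq_card_quotient_mul_card (LinearMap.ker f)]
  congr 1
  exact (Nat.card_congr (f.quotKerEquivRange).toEquiv).symm

/-- If `ker D = range N` and `N ∘ D = 0` on a finite module then `ker N = range D`. -/
theorem ker_eq_range_of_ker_eq_range [Finite V] (D N : V →ₗ[A] V)
    (h : LinearMap.ker D = LinearMap.range N) (hND : ∀ v, N (D v) = 0) :
    LinearMap.ker N = LinearMap.range D := by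
  have h1 := card_ker_mul_card_range D
  have h2 := card_ker_mul_card_range N
  have hle : LinearMap.range D ≤ LinearMap.ker N := by
    rintro _ ⟨v, rfl⟩
    exact LinearMap.mem_ker.mpr (hND v)
  have hcard : Nat.card (LinearMap.ker N) = Nat.card (LinearMap.range D) := by
    have hpos : 0 < Nat.card (LinearMap.range N) := Nat.card_pos
    rw [h] at h1
    have : Nat.card (LinearMap.range N) * Nat.card (LinearMap.range D)
        = Nat.card (LinearMap.range N) * Nat.card (LinearMap.ker N) := by
      rw [h1, mul_comm, h2]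
    exact (Nat.eq_of_mul_eq_mul_left hpos this).symm
  symm
  apply SetLike.coe_injective
  apply Set.eq_of_subset_of_ncard_le hle
  · show (LinearMap.ker N : Set V).ncard ≤ (LinearMap.range D : Set V).ncard
    rw [← Nat.card_coe_set_eq, ← Nat.card_coe_set_eq]
    exact hcard.le


/-- `c - 1` is nilpotent on a finite `p`-group if `c` has `p`-power order. -/
theorem exists_pow_sub_one_eq_zero {p : ℕ} [Fact p.Prime] [Finite V]
    (hV : ∀ v : V, ∃ n : ℕ, (p ^ n) • v = 0)
    (c : V →ₗ[A] V) (a : ℕ) (hc : c ^ (p ^ a) = 1) :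
    ∃ m : ℕ, (c - 1) ^ m = 0 := by
  set D : Module.End A V := c - 1 with hD
  have hcD : Commute c D := by
    rw [hD]; exact (Commute.refl c).sub_right (Commute.one_right c)
  obtain ⟨m, hm, hm1⟩ := ((D.eventually_isCompl_ker_pow_range_pow).and
    (Filter.eventually_ge_atTop 1)).exists
  refine ⟨m, ?_⟩
  have hcadd : ∀ v, (⇑c.toAddMonoidHom)^[p ^ a] v = v := by
    intro v
    have := congrArg (fun f : Module.End A V => f v) hc
    rw [Module.End.pow_apply] at this
    exact this
  have hU : (LinearMap.range (D ^ m)).toAddSubgroup = ⊥ := by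
    apply eq_bot_of_fixed_cyclic hV c.toAddMonoidHom a hcadd
    · rintro _ ⟨v, rfl⟩
      refine ⟨c v, ?_⟩
      have := (hcD.pow_right m).eq
      have := congrArg (fun f : Module.End A V => f v) this
      exact this.symm
    · intro z hz hfix
      have hz' : z ∈ LinearMap.range (D ^ m) := hz
      have hDz : D z = 0 := by
        rw [hD]
        show c z - z = 0
        rw [sub_eq_zero]
        exact hfix
      have hk : z ∈ LinearMap.ker (D ^ m) := by
        rw [LinearMap.mem_ker]
        obtain ⟨k, rfl⟩ : ∃ k, m = k + 1 := ⟨m - 1, by omega⟩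
        rw [pow_succ, Module.End.mul_apply, hDz, map_zero]
      have := hm.disjoint.le_bot (Submodule.mem_inf.mpr ⟨hk, hz'⟩)
      exact (Submodule.mem_bot A).mp this
  ext v
  have : (D ^ m) v ∈ (LinearMap.range (D ^ m)).toAddSubgroup := ⟨v, rfl⟩
  rw [hU] at this
  simpa using this


theorem sum_zmod_val {M : Type*} [AddCommMonoid M] (n : ℕ) [NeZero n] (g : ℕ → M) :
    ∑ x : ZMod n, g x.val = ∑ j ∈ Finset.range n, g j := by
  refine Finset.sum_bij (fun x _ => x.val) ?_ ?_ ?_ ?_
  · intro x _; exact Finset.mem_range.mpr (ZMod.val_lt x)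
  · intro x _ y _ h; exact ZMod.val_injective n h
  · intro j hj
    exact ⟨(j : ZMod n), Finset.mem_univ _, ZMod.val_natCast_of_lt (Finset.mem_range.mp hj)⟩
  · intro x _; rfl

/-- `c ^ (x + 1).val = c * c ^ x.val` if `c ^ n = 1`. -/
theorem pow_val_add_one {n : ℕ} [NeZero n] (c : V →ₗ[A] V) (hc : c ^ n = 1) (x : ZMod n) :
    c ^ (x + 1).val = c * c ^ x.val := by
  rw [ZMod.val_add, ← pow_eq_pow_mod _ hc, pow_add, ZMod.val_one_eq_one_mod,
    ← pow_eq_pow_mod _ hc, pow_one]
  exact ((Commute.refl c).pow_left _).eq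

/-- the shift on coefficient functions -/
def shiftZ (ι : Type*) (n : ℕ) (A : Type*) [CommRing A] :
    (ι × ZMod n → A) →+ (ι × ZMod n → A) where
  toFun f := fun x => f (x.1, x.2 - 1)
  map_zero' := rfl
  map_add' _ _ := rfl

theorem shiftZ_iterate (ι : Type*) (n : ℕ) (m : ℕ) (f : ι × ZMod n → A) (x : ι × ZMod n) :
    ((⇑(shiftZ ι n A))^[m] f) x = f (x.1, x.2 - m) := by
  induction m generalizing f with
  | zero => simp
  | succ m ih =>
    rw [Function.iterate_succ_apply, ih]
    show f (x.1, x.2 - m - 1) = _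
    congr 2
    push_cast
    ring

/-- the sum map -/
def sumMap {ι : Type*} [Fintype ι] (n : ℕ) [NeZero n] (c : V →ₗ[A] V) (w : ι → V) :
    (ι × ZMod n → A) →ₗ[A] V where
  toFun f := ∑ x : ι × ZMod n, f x • (c ^ x.2.val) (w x.1)
  map_add' f g := by simp [add_smul, Finset.sum_add_distrib]
  map_smul' r f := by simp [Finset.smul_sum, mul_smul]

theorem sumMap_apply {ι : Type*} [Fintype ι] (n : ℕ) [NeZero n] (c : V →ₗ[A] V) (w : ι → V)
    (f : ι × ZMod n → A) : sumMap n c w f = ∑ x : ι × ZMod n, f x • (c ^ x.2.val) (w x.1) := rfl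

theorem sumMap_shift {ι : Type*} [Fintype ι] (n : ℕ) [NeZero n] (c : V →ₗ[A] V) (hc : c ^ n = 1)
    (w : ι → V) (f : ι × ZMod n → A) :
    sumMap n c w (shiftZ ι n A f) = c (sumMap n c w f) := by
  rw [sumMap_apply, sumMap_apply, map_sum]
  refine Fintype.sum_equiv (Equiv.prodCongr (Equiv.refl ι) (Equiv.subRight (1 : ZMod n))) _ _ ?_
  intro x
  show f (x.1, x.2 - 1) • (c ^ x.2.val) (w x.1) = c (f (x.1, x.2 - 1) • (c ^ (x.2 - 1).val) (w x.1))
  rw [map_smul]
  congr 1
  have := pow_val_add_one c hc (x.2 - 1)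
  rw [sub_add_cancel] at this
  rw [this]
  rfl


/-- **Freeness criterion, cyclic step.**  `V` a finite `p`-group and `A`-module with an
automorphism `c` of order dividing `p ^ a` (a generator of `Gal(X' / X)`), `V₀` a free `A`-module
with basis `e`, `πd : V → V₀` (norm) surjective, `πu : V₀ → V` (pull-back) injective with image
the `c`-fixed elements, `πu ∘ πd = 1 + c + … + c ^ (p ^ a - 1)`.  Then for any lifts `w i` of
the `e i` the elements `c ^ j (w i)` form an `A`-basis of `V`: `V` is free over `A[⟨c⟩]`. -/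
theorem sumMap_bijective
    {p : ℕ} [Fact p.Prime] {V₀ : Type*} [AddCommGroup V₀] [Module A V₀] [Finite V]
    (hV : ∀ v : V, ∃ k : ℕ, (p ^ k) • v = 0)
    (c : V →ₗ[A] V) (a : ℕ) [NeZero (p ^ a)] (hc : c ^ (p ^ a) = 1)
    (πd : V →ₗ[A] V₀) (πu : V₀ →ₗ[A] V)
    (h1 : ∀ v, πu (πd v) = ∑ j ∈ Finset.range (p ^ a), (c ^ j) v)
    (h2 : Function.Injective πu) (h3 : Function.Surjective πd)
    (h4 : ∀ v, c v = v → ∃ x, πu x = v)
    {ι : Type*} [Fintype ι] (e : Module.Basis ι A V₀) (w : ι → V) (hw : ∀ i, πd (w i) = e i) :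
    Function.Bijective (sumMap (p ^ a) c w) := by
  classical
  set n := p ^ a with hn
  set N : Module.End A V := ∑ j ∈ Finset.range n, c ^ j with hNdef
  set D : Module.End A V := c - 1 with hDdef
  have hN : ∀ v, πu (πd v) = N v := by
    intro v
    rw [h1, hNdef, LinearMap.sum_apply]
  have hDN : D * N = 0 := by
    rw [hDdef, hNdef, mul_geom_sum, hc, sub_self]
  have hND : N * D = 0 := by
    rw [hDdef, hNdef, geom_sum_mul, hc, sub_self]
  have hDapp : ∀ v, D v = c v - v := fun v => rfl
  have hF3 : LinearMap.ker D = LinearMap.range N := by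
    apply le_antisymm
    · intro v hv
      rw [LinearMap.mem_ker, hDapp, sub_eq_zero] at hv
      obtain ⟨x, rfl⟩ := h4 v hv
      obtain ⟨v', rfl⟩ := h3 x
      exact ⟨v', (hN v').symm⟩
    · rintro _ ⟨v, rfl⟩
      rw [LinearMap.mem_ker]
      have := congrArg (fun f : Module.End A V => f v) hDN
      exact this
  have hF4 : LinearMap.ker N = LinearMap.range D :=
    ker_eq_range_of_ker_eq_range D N hF3 (fun v => by
      have := congrArg (fun f : Module.End A V => f v) hND
      exact this)
  have hshift := sumMap_shift n c hc w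
  constructor
  · -- injectivity
    rcases isEmpty_or_nonempty ι with hι | ⟨⟨i₀⟩⟩
    · have : Subsingleton (ι × ZMod n → A) := inferInstance
      exact Function.injective_of_subsingleton _
    have : Finite V₀ := Finite.of_surjective πd h3
    have hrepr : ∀ b : A, e.repr (b • e i₀) i₀ = b := by
      intro b
      simp
    have : Finite A := Finite.of_injective (fun b : A => b • e i₀) (fun b b' h => by
      have := congrArg (fun v => e.repr v i₀) h
      simpa using this)
    obtain ⟨k, hk⟩ : ∃ k : ℕ, ((p ^ k : ℕ) : A) = 0 := by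
      obtain ⟨v, hv⟩ := h3 (e i₀)
      obtain ⟨k, hk⟩ := hV v
      refine ⟨k, ?_⟩
      have h5 : (p ^ k) • e i₀ = 0 := by
        rw [← hv, ← map_nsmul, hk, map_zero]
      rw [← Nat.cast_smul_eq_nsmul A] at h5
      have := hrepr ((p ^ k : ℕ) : A)
      rw [h5] at this
      simpa using this.symm
    have hFp : ∀ f : ι × ZMod n → A, ∃ k : ℕ, (p ^ k) • f = 0 := by
      intro f
      refine ⟨k, ?_⟩
      funext x
      show (p ^ k) • f x = 0
      rw [← Nat.cast_smul_eq_nsmul A, hk, zero_smul]
    have hbot : (LinearMap.ker (sumMap n c w)).toAddSubgroup = ⊥ := by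
      apply eq_bot_of_fixed_cyclic hFp (shiftZ ι n A) a
      · intro f
        funext x
        rw [shiftZ_iterate]
        congr 2
        rw [← hn, ZMod.natCast_self, sub_zero]
      · intro f hf
        have hf' : sumMap n c w f = 0 := hf
        show sumMap n c w (shiftZ ι n A f) = 0
        rw [hshift, hf', map_zero]
      · intro f hf hfix
        have hf' : sumMap n c w f = 0 := hf
        have hconst : ∀ (i : ι) (x : ZMod n), f (i, x) = f (i, 0) := by
          intro i x
          have hit : (⇑(shiftZ ι n A))^[x.val] f = f := Function.iterate_fixed hfix _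
          have := congrFun hit (i, x)
          rw [shiftZ_iterate] at this
          rw [← this]
          congr 2
          show x - (x.val : ZMod n) = 0
          rw [ZMod.natCast_zmod_val, sub_self]
        have hsum : sumMap n c w f = πu (∑ i, f (i, 0) • e i) := by
          rw [sumMap_apply, Fintype.sum_prod_type, map_sum]
          refine Finset.sum_congr rfl fun i _ => ?_
          rw [map_smul, ← hw i, hN, hNdef, LinearMap.sum_apply, Finset.smul_sum,
            ← sum_zmod_val n (fun j => f (i, 0) • (c ^ j) (w i))]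
          refine Finset.sum_congr rfl fun x _ => ?_
          rw [hconst i x]
        rw [hsum] at hf'
        have h6 : ∑ i, f (i, 0) • e i = 0 := h2 (by rw [hf', map_zero])
        have h7 := Fintype.linearIndependent_iff.mp e.linearIndependent (fun i => f (i, 0)) h6
        funext x
        rw [show x = (x.1, x.2) from rfl, hconst, h7]
        rfl
    rw [← LinearMap.ker_eq_bot]
    apply Submodule.toAddSubgroup_injective
    rw [hbot]
    rfl
  · -- surjectivity
    rw [← LinearMap.range_eq_top]
    set W := LinearMap.range (sumMap n c w) with hW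
    have hWc : ∀ v ∈ W, c v ∈ W := by
      rintro _ ⟨f, rfl⟩
      exact ⟨shiftZ ι n A f, hshift f⟩
    have hWD : ∀ v ∈ W, D v ∈ W := by
      intro v hv
      rw [hDapp]
      exact W.sub_mem (hWc v hv) hv
    have hwW : ∀ i, w i ∈ W := by
      intro i
      refine ⟨Pi.single (i, 0) 1, ?_⟩
      rw [sumMap_apply, Finset.sum_eq_single (i, 0)]
      · simp
      · intro x _ hx
        rw [Pi.single_eq_of_ne hx, zero_smul]
      · intro h
        exact absurd (Finset.mem_univ _) h
    have hdec : ∀ v, ∃ w' ∈ W, ∃ u, v - w' = D u := by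
      intro v
      refine ⟨∑ i, e.repr (πd v) i • w i, ?_, ?_⟩
      · exact W.sum_mem fun i _ => W.smul_mem _ (hwW i)
      · have h8 : πd (v - ∑ i, e.repr (πd v) i • w i) = 0 := by
          rw [map_sub, map_sum]
          simp only [map_smul, hw]
          rw [e.sum_repr, sub_self]
        have h9 : v - ∑ i, e.repr (πd v) i • w i ∈ LinearMap.ker N := by
          rw [LinearMap.mem_ker, ← hN, h8, map_zero]
        rw [hF4] at h9
        obtain ⟨u, hu⟩ := h9
        exact ⟨u, hu.symm⟩
    obtain ⟨m, hm⟩ := exists_pow_sub_one_eq_zero hV c a hc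
    have hind : ∀ (j : ℕ) (v : V), ∃ w' ∈ W, ∃ u, v - w' = (D ^ j) u := by
      intro j
      induction j with
      | zero =>
        intro v
        exact ⟨0, W.zero_mem, v, by simp⟩
      | succ j ih =>
        intro v
        obtain ⟨w₁, hw₁, u, hu⟩ := ih v
        obtain ⟨w₂, hw₂, u', hu'⟩ := hdec u
        have hDj : ∀ (j : ℕ), ∀ x ∈ W, (D ^ j) x ∈ W := by
          intro j
          induction j with
          | zero => intro x hx; simpa using hx
          | succ j ihj =>
            intro x hx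
            rw [pow_succ', Module.End.mul_apply]
            exact hWD _ (ihj x hx)
        refine ⟨w₁ + (D ^ j) w₂, W.add_mem hw₁ (hDj j w₂ hw₂), u', ?_⟩
        have : u = w₂ + D u' := by rw [← hu']; abel
        rw [pow_succ, Module.End.mul_apply, ← sub_sub, hu, this, map_add]
        abel
    rw [eq_top_iff]
    intro v _
    obtain ⟨w', hw', u, hu⟩ := hind m v
    have hD0 : (D ^ m) u = 0 := by
      rw [hDdef, hm]; rfl
    rw [hD0, sub_eq_zero] at hu
    rw [hu]
    exact hw'


/-- The cyclic step in a form without `ZMod`: the `c ^ j (w i)`, `j < p ^ a`, span `V` and are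
linearly independent over `A`. -/
theorem cyclic_basis
    {p : ℕ} [Fact p.Prime] {V₀ : Type*} [AddCommGroup V₀] [Module A V₀] [Finite V]
    (hV : ∀ v : V, ∃ k : ℕ, (p ^ k) • v = 0)
    (c : V →ₗ[A] V) (a : ℕ) (hc : c ^ (p ^ a) = 1)
    (πd : V →ₗ[A] V₀) (πu : V₀ →ₗ[A] V)
    (h1 : ∀ v, πu (πd v) = ∑ j ∈ Finset.range (p ^ a), (c ^ j) v)
    (h2 : Function.Injective πu) (h3 : Function.Surjective πd)
    (h4 : ∀ v, c v = v → ∃ x, πu x = v)
    {ι : Type*} [Fintype ι] (e : Module.Basis ι A V₀) (w : ι → V) (hw : ∀ i, πd (w i) = e i) :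
    (∀ v : V, ∃ f : ι → ℕ → A,
      v = ∑ i, ∑ j ∈ Finset.range (p ^ a), f i j • (c ^ j) (w i)) ∧
    (∀ f : ι → ℕ → A, ∑ i, ∑ j ∈ Finset.range (p ^ a), f i j • (c ^ j) (w i) = 0 →
      ∀ i, ∀ j < p ^ a, f i j = 0) := by
  have hne : NeZero (p ^ a) := ⟨(pow_pos (Fact.out : p.Prime).pos a).ne'⟩
  have hb := sumMap_bijective hV c a hc πd πu h1 h2 h3 h4 e w hw
  constructor
  · intro v
    obtain ⟨f', rfl⟩ := hb.2 v
    refine ⟨fun i j => f' (i, (j : ZMod (p ^ a))), ?_⟩
    rw [sumMap_apply, Fintype.sum_prod_type]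
    refine Finset.sum_congr rfl fun i _ => ?_
    rw [← sum_zmod_val (p ^ a) (fun j => f' (i, (j : ZMod (p ^ a))) • (c ^ j) (w i))]
    refine Finset.sum_congr rfl fun x _ => ?_
    rw [ZMod.natCast_zmod_val]
  · intro f hf i j hj
    have h0 : sumMap (p ^ a) c w (fun x => f x.1 x.2.val) = 0 := by
      rw [sumMap_apply, Fintype.sum_prod_type, ← hf]
      refine Finset.sum_congr rfl fun i _ => ?_
      exact sum_zmod_val (p ^ a) (fun j => f i j • (c ^ j) (w i))
    have h3' : (fun x : ι × ZMod (p ^ a) => f x.1 x.2.val) = 0 :=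
      hb.1 (by rw [h0, map_zero])
    have := congrFun h3' (i, (j : ZMod (p ^ a)))
    simp only [Pi.zero_apply] at this
    rw [ZMod.val_natCast_of_lt hj] at this
    exact this

end cyclic

end Fermat.Agent.S59.TWH
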