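import Mathlib

/-!
# S59, package TW-HECKE: the abstract fixed-point lemmas (ABS-FP of `NOTES/plan/S59_TWH.md`)

`Δ` is a `p`-group acting on a finite abelian `p`-group `V` (in the application
`V = J_H[p^k]_𝔪`, `Δ = Gal(X_H / X₀(NQ))`).

* `eq_bot_of_fixedPoints` : a `Δ`-stable subgroup of `V` without nonzero `Δ`-fixed element is `0`.
* `eq_zero_of_range_le` : consequences for operators whose image lies in such a subgroup
  (torsion injectivity, unramifiedness and the Eichler–Shimura relation at good primes).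
* `absLG` : local–global compatibility at a Taylor–Wiles prime `q`, in abstract form: inertia acts
  trivially on the generalised eigenspace `φ = U_q` of a Frobenius lift `φ`.

No `sorry`; only Mathlib is used.
-/

set_option autoImplicit false

namespace Fermat.Agent.S59.TWH

open MulAction

/-- **Fixed-point lemma.** A subgroup of a finite abelian `p`-group, stable under a `p`-group `Δ`
and without nonzero `Δ`-fixed element, is zero. -/
theorem eq_bot_of_fixedPoints
    {p : ℕ} [Fact p.Prime] {Δ : Type*} [Group Δ] (hΔ : IsPGroup p Δ)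
    {V : Type*} [AddCommGroup V] [Finite V] [DistribMulAction Δ V]
    (hV : ∀ v : V, ∃ n : ℕ, (p ^ n) • v = 0)
    (Z : AddSubgroup V) (hZ : ∀ (δ : Δ) (z : V), z ∈ Z → δ • z ∈ Z)
    (h0 : ∀ z ∈ Z, (∀ δ : Δ, δ • z = z) → z = 0) : Z = ⊥ := by
  classical
  by_contra hne
  -- the action of `Δ` on `Z`
  letI : MulAction Δ Z :=
    { smul := fun δ z => ⟨δ • (z : V), hZ δ z z.2⟩
      one_smul := fun z => Subtype.ext (one_smul Δ (z : V))
      mul_smul := fun a b z => Subtype.ext (mul_smul a b (z : V)) }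
  have hsmul : ∀ (δ : Δ) (z : Z), ((δ • z : Z) : V) = δ • (z : V) := fun _ _ => rfl
  -- `Z` is a nontrivial `p`-group, so `p` divides its order
  have hZp : IsPGroup p (Multiplicative Z) := by
    intro z
    obtain ⟨n, hn⟩ := hV ((Multiplicative.toAdd z : Z) : V)
    refine ⟨n, ?_⟩
    apply Multiplicative.toAdd.injective
    rw [toAdd_pow, toAdd_one]
    exact Subtype.ext (by simpa using hn)
  have hnt : Nontrivial Z := by
    rw [AddSubgroup.nontrivial_iff_ne_bot]
    exact hne
  haveI : Nontrivial (Multiplicative Z) := hnt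
  haveI : Finite (Multiplicative Z) := inferInstanceAs (Finite Z)
  obtain ⟨n, hn0, hn⟩ := hZp.nontrivial_iff_card.mp inferInstance
  have hcard : Nat.card Z = p ^ n := by
    rw [← hn]; exact Nat.card_congr Multiplicative.ofAdd
  have hdvd : p ∣ Nat.card Z := hcard ▸ dvd_pow_self p (ne_of_gt hn0)
  have hfix0 : (0 : Z) ∈ fixedPoints Δ Z := by
    intro δ
    apply Subtype.ext
    rw [hsmul]
    simp
  obtain ⟨b, hb, hb0⟩ := hΔ.exists_fixed_point_of_prime_dvd_card_of_fixed_point Z hdvd hfix0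
  apply hb0
  apply Subtype.ext
  have := h0 (b : V) b.2 (fun δ => by
    have := hb δ
    rw [← hsmul, this])
  simpa using this.symm

/-- If the image of an additive endomorphism `E` commuting with `Δ` lies in a `Δ`-stable subgroup
`Z` without nonzero fixed element, then `E = 0`.  (Good primes: `Z` = kernel of the reduction map,
`E = σ - 1` for `σ` in inertia, or `E = φ² - T_ℓ φ + ℓ⟨ℓ⟩`.) -/
theorem eq_zero_of_range_le
    {p : ℕ} [Fact p.Prime] {Δ : Type*} [Group Δ] (hΔ : IsPGroup p Δ)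
    {V : Type*} [AddCommGroup V] [Finite V] [DistribMulAction Δ V]
    (hV : ∀ v : V, ∃ n : ℕ, (p ^ n) • v = 0)
    (Z : AddSubgroup V) (hZ : ∀ (δ : Δ) (z : V), z ∈ Z → δ • z ∈ Z)
    (h0 : ∀ z ∈ Z, (∀ δ : Δ, δ • z = z) → z = 0)
    (E : V →+ V) (hE : ∀ v : V, E v ∈ Z) (v : V) : E v = 0 := by
  have h := eq_bot_of_fixedPoints hΔ hV Z hZ h0
  have := hE v
  rw [h] at this
  exact (AddSubgroup.mem_bot).mp this

section absLG

variable {R : Type*} [CommRing R] {V : Type*} [AddCommGroup V] [Module R V]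

/-- The submodule of the elements killed by `𝔪 ^ i`. -/
def killedBy (𝔪 : Ideal R) (V : Type*) [AddCommGroup V] [Module R V] (i : ℕ) : Submodule R V where
  carrier := {v | ∀ r ∈ 𝔪 ^ i, r • v = 0}
  add_mem' := by
    intro a b ha hb r hr
    rw [smul_add, ha r hr, hb r hr, add_zero]
  zero_mem' := by intro r _; exact smul_zero r
  smul_mem' := by
    intro c x hx r hr
    rw [smul_comm, hx r hr, smul_zero]

theorem mem_killedBy {𝔪 : Ideal R} {i : ℕ} {v : V} :
    v ∈ killedBy 𝔪 V i ↔ ∀ r ∈ 𝔪 ^ i, r • v = 0 := Iff.rfl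

theorem killedBy_zero (𝔪 : Ideal R) : killedBy 𝔪 V 0 = ⊥ := by
  rw [eq_bot_iff]
  intro v hv
  have := hv 1 (by simp)
  simpa using this

theorem map_mem_killedBy {𝔪 : Ideal R} {i : ℕ} (f : V →ₗ[R] V) {v : V}
    (hv : v ∈ killedBy 𝔪 V i) : f v ∈ killedBy 𝔪 V i := by
  intro r hr
  rw [← map_smul, hv r hr, map_zero]

/-- `σ - 1` lowers the filtration if `σ` is trivial on the elements killed by `𝔪`. -/
theorem sub_mem_killedBy {𝔪 : Ideal R} (σ : V →ₗ[R] V)
    (h6b : ∀ v : V, (∀ r ∈ 𝔪, r • v = 0) → σ v = v) {i : ℕ} {v : V}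
    (hv : v ∈ killedBy 𝔪 V (i + 1)) : σ v - v ∈ killedBy 𝔪 V i := by
  intro r hr
  rw [smul_sub, ← map_smul, sub_eq_zero]
  apply h6b
  intro s hs
  rw [smul_smul]
  apply hv
  rw [pow_succ']
  exact Ideal.mul_mem_mul hs hr

/-- multiplication by an element of `𝔪` lowers the filtration. -/
theorem smul_mem_killedBy {𝔪 : Ideal R} {a : R} (ha : a ∈ 𝔪) {i : ℕ} {v : V}
    (hv : v ∈ killedBy 𝔪 V (i + 1)) : a • v ∈ killedBy 𝔪 V i := by
  intro r hr
  rw [smul_smul]
  apply hv
  rw [pow_succ]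
  exact Ideal.mul_mem_mul hr ha

/-- `σ^j w - w ≡ j (σ w - w)` modulo `F i` if `σ w - w ∈ F (i+1)`. -/
theorem pow_sub_mem_killedBy {𝔪 : Ideal R} (σ : V →ₗ[R] V)
    (h6b : ∀ v : V, (∀ r ∈ 𝔪, r • v = 0) → σ v = v) {i : ℕ} {w : V}
    (hw : σ w - w ∈ killedBy 𝔪 V (i + 1)) (j : ℕ) :
    (σ ^ j) w - w - (j : R) • (σ w - w) ∈ killedBy 𝔪 V i := by
  induction j with
  | zero => simp
  | succ j ih =>
    have h1 := map_mem_killedBy σ ih
    have h2 := sub_mem_killedBy σ h6b hw
    have h3 := (killedBy 𝔪 V i).smul_mem (j : R) h2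
    have h4 := (killedBy 𝔪 V i).add_mem h1 h3
    have e : (σ ^ (j + 1)) w - w - ((j + 1 : ℕ) : R) • (σ w - w)
        = σ ((σ ^ j) w - w - (j : R) • (σ w - w)) + (j : R) • (σ (σ w - w) - (σ w - w)) := by
      rw [pow_succ', Module.End.mul_apply]
      simp only [map_sub, map_smul, Nat.cast_succ, add_smul, one_smul, smul_sub]
      abel
    rw [e]
    exact h4

/-- `σ^q w - σ w ∈ F i` if `σ w - w ∈ F (i+1)` and `q ≡ 1` mod `𝔪`. -/
theorem pow_sub_self_mem_killedBy {𝔪 : Ideal R} (σ : V →ₗ[R] V)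
    (h6b : ∀ v : V, (∀ r ∈ 𝔪, r • v = 0) → σ v = v) {q : ℕ} (h6a : (q : R) - 1 ∈ 𝔪)
    {i : ℕ} {w : V} (hw : σ w - w ∈ killedBy 𝔪 V (i + 1)) :
    (σ ^ q) w - σ w ∈ killedBy 𝔪 V i := by
  have h1 := pow_sub_mem_killedBy σ h6b hw q
  have h2 := smul_mem_killedBy h6a hw
  have e : (σ ^ q) w - σ w
      = ((σ ^ q) w - w - (q : R) • (σ w - w)) + ((q : R) - 1) • (σ w - w) := by
    simp only [sub_smul, one_smul, smul_sub]
    abel
  rw [e]
  exact (killedBy 𝔪 V i).add_mem h1 h2


/-- `B = φ - u` commutes with `Δ`, and so do its powers. -/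
theorem pow_smul_comm {Δ : Type*} [Group Δ] [DistribMulAction Δ V]
    (B : V →ₗ[R] V) (hB : ∀ (δ : Δ) (v : V), B (δ • v) = δ • B v) (N : ℕ) (δ : Δ) (v : V) :
    (B ^ N) (δ • v) = δ • (B ^ N) v := by
  induction N generalizing v with
  | zero => simp
  | succ N ih =>
    rw [pow_succ, Module.End.mul_apply, Module.End.mul_apply, hB, ih]

/-- if `z = a • B z` then `z = a ^ N • B ^ N z`. -/
theorem eq_pow_smul_pow (B : V →ₗ[R] V) (a : R) (z : V) (hz : z = a • B z) (N : ℕ) :
    z = a ^ N • (B ^ N) z := by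
  induction N with
  | zero => simp
  | succ N ih =>
    have h1 : (B ^ (N + 1)) z = (B ^ N) (B z) := by
      rw [pow_succ, Module.End.mul_apply]
    calc z = a ^ N • (B ^ N) z := ih
      _ = a ^ N • (B ^ N) (a • B z) := by rw [← hz]
      _ = a ^ (N + 1) • (B ^ (N + 1)) z := by
        rw [h1, pow_succ, mul_smul, map_smul]

/-- **Abstract local–global compatibility at a Taylor–Wiles prime.**

`V` is a finite module over the (Hecke) ring `R`, a `p`-group, with an action of the `p`-group `Δ`;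
`φ` is a Frobenius lift at `q`, `σ` an element of inertia at `q`, `u = U_q`, `K ⊆ V` the kernel of
the reduction map, `𝔪` the maximal ideal.  Hypotheses:

* `h1`  : `(σ - 1) V ⊆ K` (the reduction map is inertia-invariant);
* `h4`  : `U_q φ = q` on the `Δ`-fixed part of `K` (computed at level `Γ₀(NQ)`, on the old part);
* `h5`  : `u² - q` is a unit (`α ≠ β`, `αβ = q`);
* `h6a` : `q ≡ 1` modulo `𝔪`;  `h6b` : `σ` is trivial on `V[𝔪]` (`ρ̄` is unramified at `q`);
* `h7`  : the tame relation `φ σ = σ^q φ`.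

Conclusion: on the generalised eigenspace `φ = U_q` of `V`, inertia acts trivially, and this
eigenspace meets `K` trivially. -/
theorem absLG
    {p : ℕ} [Fact p.Prime] {Δ : Type*} [Group Δ] (hΔ : IsPGroup p Δ)
    [Finite V] [DistribMulAction Δ V]
    (hV : ∀ v : V, ∃ n : ℕ, (p ^ n) • v = 0)
    (φ σ : V →ₗ[R] V) (u : R) (q : ℕ) (𝔪 : Ideal R) (n : ℕ)
    (h𝔪 : ∀ r ∈ 𝔪 ^ n, ∀ v : V, r • v = 0)
    (K : Submodule R V)
    (hKΔ : ∀ (δ : Δ) (x : V), x ∈ K → δ • x ∈ K)
    (hKφ : ∀ x ∈ K, φ x ∈ K)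
    (hφΔ : ∀ (δ : Δ) (v : V), φ (δ • v) = δ • φ v)
    (huΔ : ∀ (δ : Δ) (v : V), δ • (u • v) = u • (δ • v))
    (h1 : ∀ v, σ v - v ∈ K)
    (h4 : ∀ x ∈ K, (∀ δ : Δ, δ • x = x) → u • φ x = (q : R) • x)
    (h5 : IsUnit (u ^ 2 - (q : R)))
    (h6a : (q : R) - 1 ∈ 𝔪)
    (h6b : ∀ v : V, (∀ r ∈ 𝔪, r • v = 0) → σ v = v)
    (h7 : ∀ v, φ (σ v) = (σ ^ q) (φ v))
    (v : V) (N : ℕ) (hv : ((φ - u • LinearMap.id : V →ₗ[R] V) ^ N) v = 0) :
    σ v = v ∧ (v ∈ K → v = 0) := by
  classical
  set B : V →ₗ[R] V := φ - u • LinearMap.id with hBdef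
  have hBapp : ∀ x, B x = φ x - u • x := fun x => by
    simp [hBdef]
  have hBΔ : ∀ (δ : Δ) (x : V), B (δ • x) = δ • B x := by
    intro δ x
    rw [hBapp, hBapp, hφΔ, smul_sub, huΔ]
  have hBK : ∀ x ∈ K, B x ∈ K := by
    intro x hx
    rw [hBapp]
    exact K.sub_mem (hKφ x hx) (K.smul_mem u hx)
  -- Step A: `K ∩ ker B^M = 0`
  have hA : ∀ (M : ℕ) (x : V), x ∈ K → (B ^ M) x = 0 → x = 0 := by
    intro M
    have hbot : (K ⊓ LinearMap.ker (B ^ M)).toAddSubgroup = ⊥ := by
      apply eq_bot_of_fixedPoints hΔ hV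
      · intro δ z hz
        have hz' : z ∈ K ⊓ LinearMap.ker (B ^ M) := hz
        rw [Submodule.mem_inf, LinearMap.mem_ker] at hz'
        show δ • z ∈ K ⊓ LinearMap.ker (B ^ M)
        rw [Submodule.mem_inf, LinearMap.mem_ker]
        refine ⟨hKΔ δ z hz'.1, ?_⟩
        rw [pow_smul_comm B hBΔ, hz'.2, smul_zero]
      · intro z hz hfix
        have hz' : z ∈ K ⊓ LinearMap.ker (B ^ M) := hz
        rw [Submodule.mem_inf, LinearMap.mem_ker] at hz'
        obtain ⟨c, hc⟩ := h5
        have h := h4 z hz'.1 hfix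
        have hcz : (c : R) • z = -(u • B z) := by
          rw [hc, hBapp, smul_sub, h, sub_smul, smul_smul, pow_two]
          abel
        have hz2 : z = (-(((c⁻¹ : Rˣ) : R) * u)) • B z := by
          calc z = ((c⁻¹ : Rˣ) : R) • ((c : R) • z) := by
                rw [smul_smul, Units.inv_mul, one_smul]
            _ = (-(((c⁻¹ : Rˣ) : R) * u)) • B z := by
                rw [hcz, smul_neg, neg_smul, mul_smul]
        have := eq_pow_smul_pow B _ z hz2 M
        rw [hz'.2, smul_zero] at this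
        exact this
    intro x hxK hx
    have : x ∈ (K ⊓ LinearMap.ker (B ^ M)).toAddSubgroup := by
      show x ∈ K ⊓ LinearMap.ker (B ^ M)
      rw [Submodule.mem_inf, LinearMap.mem_ker]
      exact ⟨hxK, hx⟩
    rw [hbot] at this
    exact (AddSubgroup.mem_bot).mp this
  refine ⟨?_, fun hvK => hA N v hvK hv⟩
  -- Step B: `x ∈ K`, `B x ∈ F i` imply `x ∈ F i`
  have hB : ∀ (i : ℕ) (x : V), x ∈ K → B x ∈ killedBy 𝔪 V i → x ∈ killedBy 𝔪 V i := by
    intro i x hxK hBx
    have hstab : ∀ y ∈ K ⊓ killedBy 𝔪 V i, B y ∈ K ⊓ killedBy 𝔪 V i := by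
      intro y hy
      rw [Submodule.mem_inf] at hy ⊢
      exact ⟨hBK y hy.1, map_mem_killedBy B hy.2⟩
    have hinj : Function.Injective (B.restrict hstab) := by
      rw [injective_iff_map_eq_zero]
      intro y hy
      have hy' : B (y : V) = 0 := by
        have := congrArg Subtype.val hy
        simpa using this
      apply Subtype.ext
      have hyK : (y : V) ∈ K := (Submodule.mem_inf.mp y.2).1
      have := hA 1 (y : V) hyK (by simpa using hy')
      simpa using this
    have hsurj : Function.Surjective (B.restrict hstab) :=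
      Finite.injective_iff_surjective.mp hinj
    obtain ⟨w, hw⟩ := hsurj ⟨B x, Submodule.mem_inf.mpr ⟨hBK x hxK, hBx⟩⟩
    have hw' : B (w : V) = B x := by
      have := congrArg Subtype.val hw
      simpa using this
    have hwK : (w : V) ∈ K := (Submodule.mem_inf.mp w.2).1
    have hwx : (w : V) - x = 0 := by
      apply hA 1 _ (K.sub_mem hwK hxK)
      simp [hw']
    have : x = (w : V) := (sub_eq_zero.mp hwx).symm
    rw [this]
    exact (Submodule.mem_inf.mp w.2).2
  -- Step D: the key identity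
  have hkey : ∀ x : V, B (σ x - x) = (σ (B x) - B x) + ((σ ^ q) (φ x) - σ (φ x)) := by
    intro x
    rw [hBapp, hBapp, map_sub, h7]
    simp only [map_sub, map_smul, smul_sub]
    abel
  have hφB : ∀ (M : ℕ) (x : V), (B ^ M) x = 0 → (B ^ M) (φ x) = 0 := by
    intro M x hx
    have hcomm : Commute φ B := by
      rw [hBdef]
      apply Commute.sub_right (Commute.refl φ)
      apply Commute.smul_right
      exact Commute.one_right φ
    have := (hcomm.pow_right M).eq
    have h2 : (B ^ M) (φ x) = φ ((B ^ M) x) := by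
      have := congrArg (fun f : Module.End R V => f x) this
      simpa [Module.End.mul_apply] using this.symm
    rw [h2, hx, map_zero]
  -- descending induction
  have hclaim : ∀ (j : ℕ), j ≤ n → ∀ (M : ℕ) (x : V), (B ^ M) x = 0 →
      σ x - x ∈ killedBy 𝔪 V (n - j) := by
    intro j
    induction j with
    | zero =>
      intro _ M x _ r hr
      exact h𝔪 r hr _
    | succ j ih =>
      intro hj M
      have hij : n - j = (n - (j + 1)) + 1 := by omega
      have ih' := ih (by omega)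
      rw [hij] at ih'
      induction M with
      | zero =>
        intro x hx
        have : x = 0 := by simpa using hx
        rw [this]
        simp
      | succ M ihM =>
        intro x hx
        apply hB _ _ (h1 x)
        rw [hkey]
        apply Submodule.add_mem
        · apply ihM
          rw [← Module.End.mul_apply, ← pow_succ]
          exact hx
        · apply pow_sub_self_mem_killedBy σ h6b h6a
          exact ih' (M + 1) (φ x) (hφB _ _ hx)
  have := hclaim n le_rfl N v hv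
  rw [Nat.sub_self, killedBy_zero] at this
  exact sub_eq_zero.mp ((Submodule.mem_bot R).mp this)

end absLG

end Fermat.Agent.S59.TWH
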